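import Fermat.Agent.S48.C1.Maps
import Fermat.Agent.Crux.Descent

/-!
# S48 / C1 : models over number fields `K₀ ⊆ ℚ̄`

`G ⊆ ℚ̄((q))` finite, every `g ∈ G` with coefficients in a number field (`NFCoeff`).  For `K₀ : IntermediateField ℚ ℚ̄` put
`Gd K₀ G := {u ∈ K₀((q)) : u ⊗ ℚ̄ ∈ G}`.

* `exists_model` : every `f ∈ F0 ℚ̄ G` comes from `F0 K₀ (Gd K₀ G)` as soon as `K₀` contains a suitable number field `L`.
  PROOF: `IntermediateField.adjoin_induction` on `hf`.  `mem`: `f = j` (`L = ⊥`, `u = jqModC K₀`, `coeffMap_jqModC`) or `f = g ∈ G`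
  (`L` from `NFCoeff`; `u` = the series with the same coefficients: `lift_series`); `algebraMap c`: `L = ℚ(c)`; `add`, `mul`: `L₁ ⊔ L₂`
  (`IntermediateField.finiteDimensional_sup`); `inv`: same `L`.
* `HasCuspPolyQ.descend` : `L := L_Y ⊔ ℚ(coefficients of the coefficients of Φ)`; `Φ₀ : (A₀)[X][X]`, `Y₀ i : A₀((x))` have the same coefficients
  (`A₀ = A ∩ K₀ = Crux.A0 K₀ A`); with `θ : A₀ →+* A` the inclusion (injective), `coeffMap θ (Y₀ i) = Y i`,
  `Φ₀.map (mapRingHom θ) = Φ`; the product formula follows by applying the injective `Polynomial.map (coeffMap θ)`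
  (`S28.Build.coeffMap_evAt`, `coeffMap_V`, `coeffMap_J`); monic: `Polynomial.Monic.of_map`-type / leading coefficient;
  separation: `Crux.coeffMap_residue_A0_eq`-type statement in the other direction: `residue A₀ a = residue A₀ b ↔ residue A (θ a) = residue A (θ b)`
  (`Crux.residue_comap_eq_zero_iff`).
-/

set_option autoImplicit false

open Polynomial ModularCurve
open scoped IntermediateField

namespace Fermat.Agent.S48.C1

noncomputable section

open Fermat.Agent.S28 (evAt)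
open Fermat.Agent.ES (Qb)
open Fermat.Agent.Crux (A0)

/-- coefficients in a number field. -/
def NFCoeff (x : LaurentSeries Qb) : Prop :=
  ∃ L : IntermediateField ℚ Qb, FiniteDimensional ℚ L ∧ ∀ n, x.coeff n ∈ L

/-- Cusp data over a valuation ring `A` of `ℚ̄`: as `HasCuspPoly`, with roots defined over a number field. -/
def HasCuspPolyQ (A : ValuationSubring Qb) (e : ℕ) [NeZero e] (y : LaurentSeries Qb) : Prop :=
  ∃ (Φ : A[X][X]) (ι : Type) (_ : Fintype ι) (Y : ι → LaurentSeries A)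
    (L : IntermediateField ℚ Qb), FiniteDimensional ℚ L ∧ (∀ i m, ((Y i).coeff m : Qb) ∈ L) ∧
    Φ.Monic ∧ Φ.map (evAt (qExpand A e (jqModC A))) = ∏ i, (X - C (Y i)) ∧
    (∃ i, coeffMap A.subtype (Y i) = y) ∧
    ∀ i i', coeffMap (IsLocalRing.residue A) (Y i) = coeffMap (IsLocalRing.residue A) (Y i') →
      Y i = Y i'

theorem HasCuspPolyQ.hasCuspPoly {A : ValuationSubring Qb} {e : ℕ} [NeZero e]
    {y : LaurentSeries Qb} (h : HasCuspPolyQ A e y) :
    HasCuspPoly (IsLocalRing.residue A) e y := by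
  obtain ⟨Φ, ι, hι, Y, L, -, -, h1, h2, h3, h4⟩ := h
  exact ⟨Φ, ι, hι, Y, h1, h2, h3, h4⟩

variable (K₀ : IntermediateField ℚ Qb)

/-- the generators over `K₀`. -/
def Gd (G : Set (LaurentSeries Qb)) : Set (LaurentSeries K₀) :=
  coeffMap (algebraMap K₀ Qb) ⁻¹' G

variable {K₀}

theorem coeffMap_K₀_injective : Function.Injective (coeffMap (algebraMap K₀ Qb)) :=
  Fermat.Agent.S28.Build.coeffMap_injective _ (algebraMap K₀ Qb).injective

theorem Gd_finite {G : Set (LaurentSeries Qb)} (hG : G.Finite) : (Gd K₀ G).Finite :=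
  hG.preimage coeffMap_K₀_injective.injOn

/-- a series with coefficients in `K₀` comes from `K₀((q))`. -/
theorem lift_series (x : LaurentSeries Qb) (h : ∀ n, x.coeff n ∈ K₀) :
    ∃ u : LaurentSeries K₀, coeffMap (algebraMap K₀ Qb) u = x := by
  refine ⟨⟨fun n => ⟨x.coeff n, h n⟩, x.isPWO_support.mono ?_⟩, ?_⟩
  · intro n hn
    rw [Function.mem_support] at hn
    rw [HahnSeries.mem_support]
    intro h0
    exact hn (Subtype.ext h0)
  · ext n
    rw [coeffMap_coeff]
    rfl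

theorem coeffMap_mem_F0 {G : Set (LaurentSeries Qb)} {u : LaurentSeries K₀}
    (hu : u ∈ F0 K₀ (Gd K₀ G)) : coeffMap (algebraMap K₀ Qb) u ∈ F0 Qb G := by
  have hu' : u ∈ Subfield.closure
      (Set.range (algebraMap K₀ (LaurentSeries K₀)) ∪ insert (jqModC K₀) (Gd K₀ G)) := hu
  have hle : Subfield.closure
      (Set.range (algebraMap K₀ (LaurentSeries K₀)) ∪ insert (jqModC K₀) (Gd K₀ G)) ≤
      (F0 Qb G).toSubfield.comap (coeffMap (algebraMap K₀ Qb)) := by
    rw [Subfield.closure_le]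
    rintro y (⟨c, rfl⟩ | rfl | hy)
    · show coeffMap (algebraMap K₀ Qb) _ ∈ F0 Qb G
      rw [Fermat.Agent.Crux.coeffMap_algebraMap']
      exact IntermediateField.algebraMap_mem _ _
    · show coeffMap (algebraMap K₀ Qb) _ ∈ F0 Qb G
      rw [coeffMap_jqModC]
      exact IntermediateField.subset_adjoin _ _ (Set.mem_insert _ _)
    · exact IntermediateField.subset_adjoin Qb _ (Set.mem_insert_of_mem _ hy)
  exact hle hu'

theorem exists_model {G : Set (LaurentSeries Qb)} (hnf : ∀ g ∈ G, NFCoeff g)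
    {f : LaurentSeries Qb} (hf : f ∈ F0 Qb G) :
    ∃ L : IntermediateField ℚ Qb, FiniteDimensional ℚ L ∧ ∀ K₀ : IntermediateField ℚ Qb, L ≤ K₀ →
      ∃ u ∈ F0 K₀ (Gd K₀ G), coeffMap (algebraMap K₀ Qb) u = f := by
  induction hf using IntermediateField.adjoin_induction with
  | mem x hx =>
    rcases hx with rfl | hx
    · exact ⟨⊥, inferInstance, fun K₀ _ => ⟨jqModC K₀,
        IntermediateField.subset_adjoin _ _ (Set.mem_insert _ _), coeffMap_jqModC _⟩⟩
    · obtain ⟨L, hL, hc⟩ := hnf x hx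
      refine ⟨L, hL, fun K₀ hK => ?_⟩
      obtain ⟨u, hu⟩ := lift_series (K₀ := K₀) x (fun n => hK (hc n))
      refine ⟨u, IntermediateField.subset_adjoin _ _ (Set.mem_insert_of_mem _ ?_), hu⟩
      show coeffMap (algebraMap K₀ Qb) u ∈ G
      rw [hu]
      exact hx
  | algebraMap c =>
    refine ⟨ℚ⟮c⟯, IntermediateField.adjoin.finiteDimensional ((AlgebraicClosure.isAlgebraic ℚ).isAlgebraic c).isIntegral,
      fun K₀ hK => ?_⟩
    have hc : c ∈ K₀ := hK (IntermediateField.mem_adjoin_simple_self ℚ c)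
    refine ⟨algebraMap K₀ (LaurentSeries K₀) ⟨c, hc⟩, IntermediateField.algebraMap_mem _ _, ?_⟩
    rw [Fermat.Agent.Crux.coeffMap_algebraMap']
    rfl
  | add x y _ _ hx hy =>
    obtain ⟨L₁, hL₁, h₁⟩ := hx
    obtain ⟨L₂, hL₂, h₂⟩ := hy
    refine ⟨L₁ ⊔ L₂, IntermediateField.finiteDimensional_sup L₁ L₂, fun K₀ hK => ?_⟩
    obtain ⟨u₁, hu₁, e₁⟩ := h₁ K₀ (le_trans le_sup_left hK)
    obtain ⟨u₂, hu₂, e₂⟩ := h₂ K₀ (le_trans le_sup_right hK)
    exact ⟨u₁ + u₂, add_mem hu₁ hu₂, by rw [map_add, e₁, e₂]⟩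
  | inv x _ hx =>
    obtain ⟨L₁, hL₁, h₁⟩ := hx
    refine ⟨L₁, hL₁, fun K₀ hK => ?_⟩
    obtain ⟨u₁, hu₁, e₁⟩ := h₁ K₀ hK
    exact ⟨u₁⁻¹, inv_mem hu₁, by rw [map_inv₀, e₁]⟩
  | mul x y _ _ hx hy =>
    obtain ⟨L₁, hL₁, h₁⟩ := hx
    obtain ⟨L₂, hL₂, h₂⟩ := hy
    refine ⟨L₁ ⊔ L₂, IntermediateField.finiteDimensional_sup L₁ L₂, fun K₀ hK => ?_⟩
    obtain ⟨u₁, hu₁, e₁⟩ := h₁ K₀ (le_trans le_sup_left hK)
    obtain ⟨u₂, hu₂, e₂⟩ := h₂ K₀ (le_trans le_sup_right hK)
    exact ⟨u₁ * u₂, mul_mem hu₁ hu₂, by rw [map_mul, e₁, e₂]⟩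

/-- a series all of whose coefficients lift along an injective ring homomorphism lifts. -/
theorem Model_lift_series {R S : Type*} [CommRing R] [CommRing S] (θ : R →+* S)
    (hθ : Function.Injective θ) (x : LaurentSeries S) (h : ∀ n, x.coeff n ∈ Set.range θ) :
    ∃ u : LaurentSeries R, coeffMap θ u = x := by
  choose g hg using h
  refine ⟨⟨g, x.isPWO_support.mono ?_⟩, ?_⟩
  · intro n hn
    rw [Function.mem_support] at hn
    rw [HahnSeries.mem_support]
    intro h0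
    apply hn
    apply hθ
    rw [hg, h0, map_zero]
  · ext n
    rw [coeffMap_coeff]
    exact hg n

/-- the inclusion `A₀ = A ∩ K₀ → A`. -/
def Model_theta (K₀ : IntermediateField ℚ Qb) (A : ValuationSubring Qb) : A0 K₀ A →+* A :=
  ((algebraMap K₀ Qb).comp (A0 K₀ A).subtype).codRestrict A (fun x => x.2)

theorem Model_theta_coe (K₀ : IntermediateField ℚ Qb) (A : ValuationSubring Qb) (x : A0 K₀ A) :
    ((Model_theta K₀ A x : A) : Qb) = algebraMap K₀ Qb (x : K₀) := rfl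

theorem Model_theta_injective (K₀ : IntermediateField ℚ Qb) (A : ValuationSubring Qb) :
    Function.Injective (Model_theta K₀ A) := by
  intro x x' h
  apply Subtype.ext
  apply (algebraMap K₀ Qb).injective
  exact congrArg (fun z : A => (z : Qb)) h

theorem Model_mem_range_theta (K₀ : IntermediateField ℚ Qb) (A : ValuationSubring Qb) (a : A)
    (ha : (a : Qb) ∈ K₀) : a ∈ Set.range (Model_theta K₀ A) :=
  ⟨⟨⟨(a : Qb), ha⟩, a.2⟩, Subtype.ext rfl⟩

theorem HasCuspPolyQ.descend {A : ValuationSubring Qb} {e : ℕ} [NeZero e] {y : LaurentSeries Qb}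
    (h : HasCuspPolyQ A e y) :
    ∃ L : IntermediateField ℚ Qb, FiniteDimensional ℚ L ∧ ∀ K₀ : IntermediateField ℚ Qb, L ≤ K₀ →
      ∀ y₀ : LaurentSeries K₀, coeffMap (algebraMap K₀ Qb) y₀ = y →
        HasCuspPoly (IsLocalRing.residue (A0 K₀ A)) e y₀ := by
  classical
  obtain ⟨Φ, ι, hι, Y, LY, hLY, hYL, hmon, hprod, ⟨i₀, hi₀⟩, hsep⟩ := h
  -- the finite set of all coefficients of `Φ`
  set T : Finset Qb := (Φ.coeffs.biUnion fun P => P.coeffs).image (fun a : A => (a : Qb)) with hT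
  have hTfd : FiniteDimensional ℚ (IntermediateField.adjoin ℚ (T : Set Qb)) :=
    IntermediateField.finiteDimensional_adjoin
      (fun x _ => ((AlgebraicClosure.isAlgebraic ℚ).isAlgebraic x).isIntegral)
  refine ⟨LY ⊔ IntermediateField.adjoin ℚ (T : Set Qb),
    IntermediateField.finiteDimensional_sup _ _, fun K₀ hK y₀ hy₀ => ?_⟩
  have hK1 : LY ≤ K₀ := le_trans le_sup_left hK
  have hK2 : IntermediateField.adjoin ℚ (T : Set Qb) ≤ K₀ := le_trans le_sup_right hK
  set θ := Model_theta K₀ A with hθ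
  have hθinj : Function.Injective θ := Model_theta_injective K₀ A
  -- coefficients of `Φ`
  have hcoef : ∀ a b, (((Φ.coeff a).coeff b : A) : Qb) ∈ K₀ := by
    intro a b
    by_cases h0 : (Φ.coeff a).coeff b = 0
    · rw [h0]
      exact K₀.zero_mem
    · have ha : Φ.coeff a ≠ 0 := by
        intro h1
        rw [h1, coeff_zero] at h0
        exact h0 rfl
      apply hK2
      apply IntermediateField.subset_adjoin
      rw [hT, Finset.coe_image]
      refine ⟨_, ?_, rfl⟩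
      rw [Finset.mem_coe, Finset.mem_biUnion]
      exact ⟨Φ.coeff a, coeff_mem_coeffs ha, coeff_mem_coeffs h0⟩
  have hΦl : Φ ∈ Polynomial.lifts (mapRingHom θ) := by
    rw [lifts_iff_coeff_lifts]
    intro a
    have : Φ.coeff a ∈ Polynomial.lifts θ := by
      rw [lifts_iff_coeff_lifts]
      intro b
      exact Model_mem_range_theta K₀ A _ (hcoef a b)
    obtain ⟨P, hP⟩ := (mem_lifts _).mp this
    exact ⟨P, hP⟩
  obtain ⟨Φ₀, hΦ₀⟩ := (mem_lifts _).mp hΦl
  have hY₀ : ∀ i, ∃ u : LaurentSeries (A0 K₀ A), coeffMap θ u = Y i := fun i =>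
    Model_lift_series θ hθinj (Y i) (fun n => Model_mem_range_theta K₀ A _ (hK1 (hYL i n)))
  choose Y₀ hY₀ using hY₀
  have hcinj : Function.Injective (coeffMap θ) :=
    Fermat.Agent.S28.Build.coeffMap_injective θ hθinj
  refine ⟨Φ₀, ι, hι, Y₀, ?_, ?_, ⟨i₀, ?_⟩, ?_⟩
  · apply monic_of_injective (f := mapRingHom θ) (map_injective θ hθinj)
    rw [hΦ₀]
    exact hmon
  · apply map_injective (coeffMap θ) hcinj
    rw [map_map, Fermat.Agent.S28.Build.coeffMap_comp_evAt, ← map_map, hΦ₀, coeffMap_qExpand',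
      coeffMap_jqModC, hprod, Polynomial.map_prod]
    refine Finset.prod_congr rfl fun i _ => ?_
    rw [Polynomial.map_sub, map_X, map_C, hY₀]
  · apply coeffMap_K₀_injective
    rw [hy₀, ← hi₀, ← hY₀ i₀, coeffMap_coeffMap, coeffMap_coeffMap]
    rfl
  · intro i i' hii
    apply hcinj
    rw [hY₀, hY₀]
    apply hsep
    ext n
    have hn := congrArg (fun s => s.coeff n) hii
    simp only [coeffMap_coeff] at hn
    rw [coeffMap_coeff, coeffMap_coeff, ← hY₀ i, ← hY₀ i', coeffMap_coeff, coeffMap_coeff,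
      ← sub_eq_zero, ← map_sub, ← map_sub]
    rw [← sub_eq_zero, ← map_sub] at hn
    exact (Fermat.Agent.Crux.residue_comap_eq_zero_iff (algebraMap K₀ Qb) A _ _ rfl).mp hn

/-- finitely many number fields lie in one. -/
theorem exists_common_field {α : Type*} (S : Set α) (hS : S.Finite)
    (P : α → IntermediateField ℚ Qb → Prop)
    (h : ∀ a ∈ S, ∃ L : IntermediateField ℚ Qb, FiniteDimensional ℚ L ∧
      ∀ K₀ : IntermediateField ℚ Qb, L ≤ K₀ → P a K₀) :
    ∃ L : IntermediateField ℚ Qb, FiniteDimensional ℚ L ∧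
      ∀ K₀ : IntermediateField ℚ Qb, L ≤ K₀ → ∀ a ∈ S, P a K₀ := by
  induction S, hS using Set.Finite.induction_on with
  | empty => exact ⟨⊥, inferInstance, fun _ _ a ha => absurd ha (Set.notMem_empty a)⟩
  | @insert a S _ _ ih =>
    obtain ⟨L₁, hL₁, h₁⟩ := ih fun b hb => h b (Set.mem_insert_of_mem _ hb)
    obtain ⟨L₂, hL₂, h₂⟩ := h a (Set.mem_insert _ _)
    refine ⟨L₁ ⊔ L₂, IntermediateField.finiteDimensional_sup L₁ L₂, fun K₀ hK b hb => ?_⟩
    rcases hb with rfl | hb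
    · exact h₂ K₀ (le_trans le_sup_right hK)
    · exact h₁ K₀ (le_trans le_sup_left hK) b hb

end

end Fermat.Agent.S48.C1
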