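import Fermat.Agent.S48.C1.Defs

/-!
# S48 / C1 : basic facts on the generic tower `E ⊆ F = E(S) ⊆ K((x))`  (port of `Crux/GT/Basic`, second half)
-/

set_option autoImplicit false

open Polynomial ModularCurve
open scoped IntermediateField

namespace Fermat.Agent.S48.C1

noncomputable section

open Fermat.Agent.S28 (jd evAt)
open Fermat.Agent.Crux.G
open Fermat.Agent.Crux.GT

variable {K : Type} [Field K] {A : ValuationSubring K}

theorem qExpand_congr {R : Type*} [CommRing R] {m n : ℕ} [NeZero m] [NeZero n] (h : m = n)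
    (x : LaurentSeries R) : qExpand R m x = qExpand R n x := by
  subst h
  rfl

theorem coeffMap_qExpand' {R S : Type*} [CommRing R] [CommRing S] (f : R →+* S) (n : ℕ) [NeZero n]
    (x : LaurentSeries R) : coeffMap f (qExpand R n x) = qExpand S n (coeffMap f x) :=
  Fermat.Agent.S28.Build.coeffMap_V f n x

/-- the root of the cusp polynomial. -/
theorem HasCuspPoly.exists_root {k : Type} [Field k] {r : A →+* k} {e : ℕ} [NeZero e] {y : Om K}
    (h : HasCuspPoly r e y) :
    ∃ (Φ : A[X][X]) (Y : LaurentSeries A), Φ.Monic ∧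
      eval₂ (evAt (qExpand A e (jqModC A))) Y Φ = 0 ∧ coeffMap A.subtype Y = y := by
  classical
  obtain ⟨Φ, ι, _, Y, hΦ, hprod, ⟨i, hi⟩, -⟩ := h
  refine ⟨Φ, Y i, hΦ, ?_, hi⟩
  rw [← eval_map, hprod, eval_prod]
  exact Finset.prod_eq_zero (Finset.mem_univ i) (by simp)

/-- pass from `q = x'^e` to `q = x^(e s)`, `x' = x^s`. -/
theorem HasCuspPoly.expand {k : Type} [Field k] {r : A →+* k} {e : ℕ} [NeZero e]
    {g : LaurentSeries K} (h : HasCuspPoly r e (qExpand K e g)) (s : ℕ) [NeZero s] :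
    HasCuspPoly r (e * s) (qExpand K (e * s) g) := by
  classical
  obtain ⟨Φ, ι, hι, Y, hΦ, hprod, ⟨i, hi⟩, hinj⟩ := h
  refine ⟨Φ, ι, hι, fun i => qExpand A s (Y i), hΦ, ?_, ⟨i, ?_⟩, ?_⟩
  · have hcomp : evAt (qExpand A (e * s) (jqModC A)) =
        (qExpand A s).comp (evAt (qExpand A e (jqModC A))) := by
      have h1 := Fermat.Agent.S28.Build.V_comp_evAt s (qExpand A e (jqModC A))
      have h2 : qExpand A s (qExpand A e (jqModC A)) = qExpand A (e * s) (jqModC A) := by
        rw [qExpand_qExpand]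
        exact qExpand_congr (mul_comm s e) _
      rw [← h2]
      exact h1.symm
    rw [hcomp, ← Polynomial.map_map, hprod, Polynomial.map_prod]
    refine Finset.prod_congr rfl fun i _ => ?_
    rw [Polynomial.map_sub, Polynomial.map_X, Polynomial.map_C]
  · rw [coeffMap_qExpand', hi, qExpand_qExpand]
    exact qExpand_congr (mul_comm s e) _
  · intro i i' hii
    rw [coeffMap_qExpand', coeffMap_qExpand'] at hii
    exact congrArg (qExpand A s) (hinj i i' (qExpand_injective s hii))

variable {s : ℕ} [NeZero s] {P Q : ℤ[X]} (c : Coord A s P Q) (n : ℕ) [NeZero n]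

theorem gen_mem_FS {t : Om K} {S : Set (Om K)} {y : Om K} (hy : y ∈ S) : y ∈ FS K t S :=
  IntermediateField.subset_adjoin _ _ hy

theorem isIntegral_gen (hQ : Q.Monic) {k : Type} [Field k] {r : A →+* k} {y : Om K}
    (hy : HasCuspPoly r (n * s) y) : IsIntegral (EE K (c.tK n)) y := by
  obtain ⟨Φ, Y, hΦ, hroot, hY⟩ := hy.exists_root
  let φ : A[X] →+* EE K (c.tK n) :=
    ((aeval (⟨jd K (n * s), jd_mem_EE c n hQ⟩ : EE K (c.tK n)) : A[X] →ₐ[A] EE K (c.tK n)) :
      A[X] →+* EE K (c.tK n))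
  have hφ : (algebraMap (EE K (c.tK n)) (Om K)).comp φ =
      (coeffMap A.subtype).comp (evAt (qExpand A (n * s) (jqModC A))) := by
    refine Polynomial.ringHom_ext (fun a => ?_) ?_
    · simp only [φ, RingHom.comp_apply, RingHom.coe_coe, aeval_C, Fermat.Agent.S28.Build.evAt_C,
        Fermat.Agent.S28.Build.coeffMap_C, Fermat.Agent.S28.C_eq_algebraMap]
      rfl
    · simp only [φ, RingHom.comp_apply, RingHom.coe_coe, aeval_X, Fermat.Agent.S28.Build.evAt_X,
        Fermat.Agent.S28.Build.coeffMap_V, Fermat.Agent.S28.Build.coeffMap_J,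
        ← Fermat.Agent.S28.jd_eq]
      rfl
  refine ⟨Φ.map φ, hΦ.map _, ?_⟩
  have h3 := congrArg (coeffMap A.subtype) hroot
  rw [hom_eval₂, map_zero, hY] at h3
  rw [Polynomial.eval₂_map, hφ]
  exact h3

theorem finiteDimensional_FS (hQ : Q.Monic) {k : Type} [Field k] (r : A →+* k) (S : Set (Om K))
    (hS : S.Finite) (hc : ∀ y ∈ S, HasCuspPoly r (n * s) y) :
    FiniteDimensional (EE K (c.tK n)) (FS K (c.tK n) S) := by
  have : Finite S := hS.to_subtype
  exact IntermediateField.finiteDimensional_adjoin fun y hy => isIntegral_gen c n hQ (hc y hy)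

/-- the generators lie in `O_F`. -/
theorem isOLx_gen' [IsDiscreteValuationRing A] {π : A} (hπ : Irreducible π) (hQ : Q.Monic)
    {k : Type} [Field k] {r : A →+* k} (S : Set (Om K)) {y : Om K} (hy : y ∈ S)
    (hc : HasCuspPoly r (n * s) y) :
    IsOLx π (tE K (c.tK n)) (⟨y, gen_mem_FS hy⟩ : FS K (c.tK n) S) := by
  let _ := algL (A := A) (FS K (c.tK n) S) (tE K (c.tK n))
  have hinj : Function.Injective (algebraMap (FS K (c.tK n) S) (Om K)) :=
    (algebraMap (FS K (c.tK n) S) (Om K)).injective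
  -- the structure map on integer polynomials
  have hmap : ∀ p : ℤ[X], algebraMap (FS K (c.tK n) S) (Om K)
      (algebraMap A[X] (FS K (c.tK n) S) (p.map (algebraMap ℤ A))) = aeval (c.tK n) p := by
    intro p
    change ((aeval (tE K (c.tK n)) (p.map (algebraMap ℤ A)) : EE K (c.tK n)) : Om K) = _
    rw [BasicB_aeval_map_int, BasicB_coe_aeval_int]
  obtain ⟨k', hk⟩ := BasicB_exists_pow_smul_isIntegral (L := FS K (c.tK n) S)
    (P.map (algebraMap ℤ A)) (Q.map (algebraMap ℤ A))
    (by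
      intro h
      have h2 := hmap Q
      rw [h, map_zero, ← BasicB_coe_aeval_int] at h2
      exact BasicB_aeval_ne_zero c n hQ (Subtype.ext h2.symm))
    (algebraMap (EE K (c.tK n)) (FS K (c.tK n) S) ⟨jd K (n * s), jd_mem_EE c n hQ⟩)
    (by
      apply hinj
      rw [map_mul, hmap, hmap, rel_tK c n]
      rfl)
    (⟨y, gen_mem_FS hy⟩ : FS K (c.tK n) S)
    (by
      obtain ⟨G, Y, hG, hGe, hY⟩ := hc.exists_root
      refine ⟨G, hG, hinj ?_⟩
      have h3 := congrArg (coeffMap A.subtype) hGe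
      rw [hom_eval₂, map_zero, hY] at h3
      rw [hom_eval₂, map_zero, ← h3]
      congr 1
      refine Polynomial.ringHom_ext (fun a => ?_) ?_
      · simp only [RingHom.comp_apply, coe_eval₂RingHom, eval₂_C, Fermat.Agent.S28.Build.evAt_C]
        rw [Fermat.Agent.S28.Build.coeffMap_C, Fermat.Agent.S28.C_eq_algebraMap]
        change ((aeval (tE K (c.tK n)) (C a : A[X]) : EE K (c.tK n)) : Om K) = _
        rw [aeval_C]
        rfl
      · simp only [RingHom.comp_apply, coe_eval₂RingHom, eval₂_X, Fermat.Agent.S28.Build.evAt_X,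
          Fermat.Agent.S28.Build.coeffMap_V, Fermat.Agent.S28.Build.coeffMap_J,
          ← Fermat.Agent.S28.jd_eq]
        rfl)
  refine ⟨(Q.map (algebraMap ℤ A)) ^ k', ?_, hk⟩
  intro hdvd
  have h1 := (Polynomial.prime_C_iff.mpr hπ.prime).dvd_of_dvd_pow hdvd
  rw [C_dvd_iff_dvd_coeff] at h1
  have h2 := h1 (Q.map (algebraMap ℤ A)).natDegree
  rw [coeff_natDegree, (hQ.map (algebraMap ℤ A)).leadingCoeff] at h2
  exact hπ.not_isUnit (isUnit_of_dvd_one h2)

/-- `V_e` maps `F₀ = K(j, G)` into `F`. -/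
theorem qExpand_mem_FS (hQ : Q.Monic) (G : Set (LaurentSeries K)) {f : LaurentSeries K}
    (hf : f ∈ F0 K G) :
    qExpand K (n * s) f ∈ FS K (c.tK n) (qExpand K (n * s) '' G) := by
  have hle : F0 K G ≤
      ((FS K (c.tK n) (qExpand K (n * s) '' G)).restrictScalars K).comap
        (Fermat.Agent.S28.Va (n * s)) := by
    rw [IntermediateField.adjoin_le_iff]
    intro g hg
    change qExpand K (n * s) g ∈ FS K (c.tK n) (qExpand K (n * s) '' G)
    rcases hg with rfl | hg
    · have h1 : qExpand K (n * s) (jqModC K) = jd K (n * s) :=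
        (Fermat.Agent.S28.jd_eq (n * s)).symm
      rw [h1]
      exact (FS K (c.tK n) (qExpand K (n * s) '' G)).algebraMap_mem
        (⟨jd K (n * s), jd_mem_EE c n hQ⟩ : EE K (c.tK n))
    · exact IntermediateField.subset_adjoin _ _ ⟨g, hg, rfl⟩
  exact hle hf

end

end Fermat.Agent.S48.C1
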