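import Fermat.Agent.Crux.GT.Rho

/-!
# S48 / C1 : abstract CRUX for a function field `F₀ = K(j, G) ⊆ K((q))`: definitions

Generic version of `Crux/GT` (there: `G = {j(q^d) : d ∣ M}`).

* `F0 K G = K(j, G) ⊆ K((q))`.
* `q = x^e`, `e = n * s`, `t = c.tK n ∈ K((x))` the Legendre / Hesse coordinate (`GT.Coord`), `E = K(t)` (`GT.EE`),
  `FS K t S = E(S)`, `S = V_e '' G`, `LS K t S w = E(S)(w)`.
* `HasCuspPoly r e y` : `y ∈ K((x))` is a root of a monic polynomial over `A[j(x^e)]` which splits over `A((x))`, two roots with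
  the same reduction being equal.
* `HasPacks F₀ jK good` : for every `c₀ ∈ ℚ̄` there are `[F₀ : K(j)]` distinct embeddings `F₀ → ℂ((w))` with
  `j ↦ c₀ + v(w)`, `ord v = 3, 2, 1` (`c₀ = 0`, `1728`, other).
-/

set_option autoImplicit false

open Polynomial ModularCurve
open scoped IntermediateField

namespace Fermat.Agent.S48.C1

noncomputable section

open Fermat.Agent.S28 (evAt)
open Fermat.Agent.Crux.GT (Om EE tE)
open Fermat.Agent.ES (Qb)
open Fermat.Agent.S24 (iotaC)

variable (K : Type) [Field K]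

/-- `F₀ = K(j, G) ⊆ K((q))`. -/
abbrev F0 (G : Set (LaurentSeries K)) : IntermediateField K (LaurentSeries K) :=
  IntermediateField.adjoin K (insert (jqModC K) G)

/-- `j ∈ F₀`. -/
def jF0 (G : Set (LaurentSeries K)) : F0 K G :=
  ⟨jqModC K, IntermediateField.subset_adjoin _ _ (Set.mem_insert _ _)⟩

variable (t : Om K) (S : Set (Om K))

/-- `F = E(S)`. -/
abbrev FS : IntermediateField (EE K t) (Om K) := IntermediateField.adjoin (EE K t) S

/-- `L = F(w)`. -/
abbrev LS (w : Om K) : IntermediateField (FS K t S) (Om K) :=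
  IntermediateField.adjoin (FS K t S) {w}

variable {K} (A : ValuationSubring K)

instance instAlgAFS : Algebra A (FS K t S) :=
  ((algebraMap (EE K t) (FS K t S)).comp (algebraMap A (EE K t))).toAlgebra

instance instAlgALS (w : Om K) : Algebra A (LS K t S w) :=
  ((algebraMap (EE K t) (LS K t S w)).comp (algebraMap A (EE K t))).toAlgebra

instance instTowerAEFS : IsScalarTower A (EE K t) (FS K t S) := IsScalarTower.of_algebraMap_eq' rfl

instance instTowerAELS (w : Om K) : IsScalarTower A (EE K t) (LS K t S w) :=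
  IsScalarTower.of_algebraMap_eq' rfl

variable {A}

/-- Cusp data for `y ∈ K((x))`, `q = x^e`. -/
def HasCuspPoly {k : Type} [Field k] (r : A →+* k) (e : ℕ) [NeZero e] (y : Om K) : Prop :=
  ∃ (Φ : A[X][X]) (ι : Type) (_ : Fintype ι) (Y : ι → LaurentSeries A),
    Φ.Monic ∧ Φ.map (evAt (qExpand A e (jqModC A))) = ∏ i, (X - C (Y i)) ∧
    (∃ i, coeffMap A.subtype (Y i) = y) ∧
    ∀ i i', coeffMap r (Y i) = coeffMap r (Y i') → Y i = Y i'

/-- Packs of Taylor embeddings. -/
def HasPacks [Algebra K Qb] (F₀ : IntermediateField K (LaurentSeries K)) (jK : F₀)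
    (good : (F₀ →+* LaurentSeries ℂ) → Prop) : Prop :=
  ∀ c₀ : Qb, ∃ (σ : Fin (Module.finrank K⟮jK⟯ F₀) → (F₀ →+* LaurentSeries ℂ)) (v : PowerSeries ℂ),
    Function.Injective σ ∧
    (∀ a (x : K), σ a (algebraMap K F₀ x) = HahnSeries.C (iotaC (algebraMap K Qb x))) ∧
    (∀ a, σ a jK = HahnSeries.ofPowerSeries ℤ ℂ (PowerSeries.C (iotaC c₀) + v)) ∧
    (c₀ = 0 → v.order = 3) ∧ (c₀ = 1728 → v.order = 2) ∧
    (c₀ ≠ 0 → c₀ ≠ 1728 → v.order = 1) ∧ ∀ a, good (σ a)

end

end Fermat.Agent.S48.C1
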