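import Fermat.Agent.S48.C1.Model
import Fermat.Agent.Crux.GT.PF.Deg

/-!
# S48 / C1 : `[F0 K₀ : K₀(j)] = [F0 ℚ̄ : ℚ̄(j)]` and descent of the packs  (generic version of `Crux/GT/PF/Deg`)

`β : F0 K₀ (Gd K₀ G) → F0 ℚ̄ G` induced by `coeffMap (algebraMap K₀ ℚ̄)`.
* `ringHom_eq_of_beta` : two ring homs `σ σ' : F0 ℚ̄ G → Ω` which agree on the constants `ℚ̄` and on the image of `β` are equal, if every `g ∈ G`
  comes from `K₀((q))`: the equaliser (`RingHom.eqLocusField`) contains `ℚ̄`, `j = β j`, `G`; `IntermediateField.adjoin_induction`.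
* `linearIndependent_beta` : copy of `GT.PF.linearIndependent_beta` (`GT.PF.linearIndependent_iff_PI`, `GT.PF.PI_map_iff`, `S28.polyIndep_coeffMap_aux`).
* `finrank_eq` : copy of `GT.PF.finrank_F0`: (≤) `linearIndependent_beta` + `rank_le`; (≥) the pack at `c₀ = 1` composed with `β`:
  `finrank ℚ̄(j) (F0 ℚ̄ G)` distinct `K₀`-algebra homs which agree on `j`: `S24.Packages.card_le_finrank_of_embeddings`.
* `HasPacks.descend` : compose with `β`, reindex by `finCongr finrank_eq`.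
-/

set_option autoImplicit false

open Polynomial ModularCurve
open scoped IntermediateField

namespace Fermat.Agent.S48.C1

noncomputable section

open Fermat.Agent.ES (Qb)
open Fermat.Agent.S24 (iotaC)

variable (K₀ : IntermediateField ℚ Qb) (G : Set (LaurentSeries Qb))

/-- `β : F_{K₀} → F_{ℚ̄}`. -/
def beta : F0 K₀ (Gd K₀ G) →+* F0 Qb G :=
  ((coeffMap (algebraMap K₀ Qb)).comp
    ((F0 K₀ (Gd K₀ G)).val : _ →+* LaurentSeries K₀)).codRestrict
      (F0 Qb G) (fun f => coeffMap_mem_F0 f.2)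

theorem beta_coe (f : F0 K₀ (Gd K₀ G)) :
    ((beta K₀ G f : F0 Qb G) : LaurentSeries Qb)
      = coeffMap (algebraMap K₀ Qb) (f : LaurentSeries K₀) := rfl

theorem beta_jF0 : beta K₀ G (jF0 K₀ (Gd K₀ G)) = jF0 Qb G := by
  apply Subtype.ext
  rw [beta_coe]
  exact coeffMap_jqModC _

theorem beta_algebraMap (a : K₀) :
    beta K₀ G (algebraMap K₀ (F0 K₀ (Gd K₀ G)) a) = algebraMap Qb (F0 Qb G) (algebraMap K₀ Qb a) := by
  apply Subtype.ext
  rw [beta_coe]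
  show coeffMap (algebraMap K₀ Qb) (algebraMap K₀ (LaurentSeries K₀) a)
    = algebraMap Qb (LaurentSeries Qb) (algebraMap K₀ Qb a)
  rw [algebraMap_laurentSeries_eq_single, coeffMap_single, algebraMap_laurentSeries_eq_single]

variable {K₀ G}

theorem ringHom_eq_of_beta (hsurj : ∀ g ∈ G, ∃ u : LaurentSeries K₀, coeffMap (algebraMap K₀ Qb) u = g)
    {Ω : Type*} [Field Ω] (σ σ' : F0 Qb G →+* Ω)
    (hc : ∀ a : Qb, σ (algebraMap Qb (F0 Qb G) a) = σ' (algebraMap Qb (F0 Qb G) a))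
    (h : ∀ f, σ (beta K₀ G f) = σ' (beta K₀ G f)) : σ = σ' := by
  have key : ∀ (f : LaurentSeries Qb) (hf : f ∈ F0 Qb G), σ ⟨f, hf⟩ = σ' ⟨f, hf⟩ := by
    intro f hf
    induction hf using IntermediateField.adjoin_induction with
    | mem x hx =>
      rcases hx with rfl | hx
      · have h1 := h (jF0 K₀ (Gd K₀ G))
        rw [beta_jF0] at h1
        exact h1
      · obtain ⟨u, hu⟩ := hsurj x hx
        have hu' : u ∈ F0 K₀ (Gd K₀ G) :=
          IntermediateField.subset_adjoin _ _ (Set.mem_insert_of_mem _ (by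
            show coeffMap (algebraMap K₀ Qb) u ∈ G
            rw [hu]; exact hx))
        have h1 := h ⟨u, hu'⟩
        have h2 : beta K₀ G ⟨u, hu'⟩ = ⟨x, IntermediateField.subset_adjoin _ _
            (Set.mem_insert_of_mem _ hx)⟩ := Subtype.ext hu
        rw [h2] at h1
        exact h1
    | algebraMap a => exact hc a
    | add x y hx hy ihx ihy =>
      have h1 : (⟨x + y, add_mem hx hy⟩ : F0 Qb G) = ⟨x, hx⟩ + ⟨y, hy⟩ := rfl
      rw [h1, map_add, map_add, ihx, ihy]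
    | inv x hx ihx =>
      have h1 : (⟨x⁻¹, inv_mem hx⟩ : F0 Qb G) = (⟨x, hx⟩ : F0 Qb G)⁻¹ := rfl
      rw [h1, map_inv₀, map_inv₀, ihx]
    | mul x y hx hy ihx ihy =>
      have h1 : (⟨x * y, mul_mem hx hy⟩ : F0 Qb G) = ⟨x, hx⟩ * ⟨y, hy⟩ := rfl
      rw [h1, map_mul, map_mul, ihx, ihy]
  ext ⟨f, hf⟩
  exact key f hf

theorem linearIndependent_beta {ι : Type*} (b : ι → F0 K₀ (Gd K₀ G))
    (h : LinearIndependent K₀⟮jF0 K₀ (Gd K₀ G)⟯ b) :
    LinearIndependent Qb⟮jF0 Qb G⟯ (fun i => beta K₀ G (b i)) := by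
  rw [Crux.GT.PF.linearIndependent_iff_PI] at h ⊢
  rw [← Crux.GT.PF.PI_map_iff (F0 K₀ (Gd K₀ G)).val] at h
  rw [← Crux.GT.PF.PI_map_iff (F0 Qb G).val]
  have h2 := S28.polyIndep_coeffMap_aux (K := Qb) (jqModC K₀)
    (fun i => ((b i : F0 K₀ (Gd K₀ G)) : LaurentSeries K₀)) h
  have hj : (F0 Qb G).val (jF0 Qb G) = coeffMap (algebraMap K₀ Qb) (jqModC K₀) := by
    rw [← beta_jF0 K₀ G]
    rfl
  rw [hj]
  exact h2

theorem finrank_eq (hsurj : ∀ g ∈ G, ∃ u : LaurentSeries K₀, coeffMap (algebraMap K₀ Qb) u = g)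
    [FiniteDimensional Qb⟮jF0 Qb G⟯ (F0 Qb G)]
    (hpack : HasPacks (F0 Qb G) (jF0 Qb G) (fun _ => True)) :
    Module.finrank K₀⟮jF0 K₀ (Gd K₀ G)⟯ (F0 K₀ (Gd K₀ G))
      = Module.finrank Qb⟮jF0 Qb G⟯ (F0 Qb G) := by
  have hrank : Module.rank K₀⟮jF0 K₀ (Gd K₀ G)⟯ (F0 K₀ (Gd K₀ G))
      ≤ (Module.finrank Qb⟮jF0 Qb G⟯ (F0 Qb G) : ℕ) := by
    apply rank_le
    intro s hs
    have h1 := linearIndependent_beta _ hs
    have h2 := h1.fintype_card_le_finrank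
    rw [Fintype.card_coe] at h2
    exact h2
  have hfin : FiniteDimensional K₀⟮jF0 K₀ (Gd K₀ G)⟯ (F0 K₀ (Gd K₀ G)) := by
    have hfree : Module.Free K₀⟮jF0 K₀ (Gd K₀ G)⟯ (F0 K₀ (Gd K₀ G)) :=
      Module.Free.of_divisionRing _ _
    rw [FiniteDimensional, ← Module.rank_lt_aleph0_iff]
    exact lt_of_le_of_lt hrank (Cardinal.natCast_lt_aleph0)
  refine le_antisymm (Module.finrank_le_of_rank_le hrank) ?_
  obtain ⟨σ, v, hσ, hσK, hσj, -⟩ := hpack 1
  let _ : Algebra K₀ (LaurentSeries ℂ) :=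
    ((HahnSeries.C : ℂ →+* LaurentSeries ℂ).comp (iotaC.comp (algebraMap K₀ Qb))).toAlgebra
  let τ : Fin (Module.finrank Qb⟮jF0 Qb G⟯ (F0 Qb G)) →
      F0 K₀ (Gd K₀ G) →ₐ[K₀] LaurentSeries ℂ := fun a =>
    { ((σ a).comp (beta K₀ G)) with
      commutes' := fun r => by
        show σ a (beta K₀ G (algebraMap K₀ (F0 K₀ (Gd K₀ G)) r)) = _
        rw [beta_algebraMap, hσK]
        rfl }
  have hτ : Function.Injective τ := by
    intro a b hab
    apply hσ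
    apply ringHom_eq_of_beta hsurj
    · intro x
      rw [hσK, hσK]
    · intro f
      exact DFunLike.congr_fun hab f
  have hx : ∀ a b, τ a (jF0 K₀ (Gd K₀ G)) = τ b (jF0 K₀ (Gd K₀ G)) := by
    intro a b
    show σ a (beta K₀ G (jF0 K₀ (Gd K₀ G))) = σ b (beta K₀ G (jF0 K₀ (Gd K₀ G)))
    rw [beta_jF0, hσj, hσj]
  have h3 := S24.Packages.card_le_finrank_of_embeddings (jF0 K₀ (Gd K₀ G)) τ hτ hx
  rw [Nat.card_eq_fintype_card, Fintype.card_fin] at h3
  exact h3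

theorem HasPacks.descend
    (hsurj : ∀ g ∈ G, ∃ u : LaurentSeries K₀, coeffMap (algebraMap K₀ Qb) u = g)
    [FiniteDimensional Qb⟮jF0 Qb G⟯ (F0 Qb G)]
    (good : (F0 Qb G →+* LaurentSeries ℂ) → Prop)
    (hpack : HasPacks (F0 Qb G) (jF0 Qb G) good) :
    HasPacks (F0 K₀ (Gd K₀ G)) (jF0 K₀ (Gd K₀ G))
      (fun σ => ∃ σ', good σ' ∧ σ = σ'.comp (beta K₀ G)) := by
  have hpack' : HasPacks (F0 Qb G) (jF0 Qb G) (fun _ => True) := by
    intro c₀
    obtain ⟨σ, v, h1, h2, h3, h4, h5, h6, -⟩ := hpack c₀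
    exact ⟨σ, v, h1, h2, h3, h4, h5, h6, fun _ => trivial⟩
  have hrk := finrank_eq hsurj hpack'
  intro c₀
  obtain ⟨σ, v, hσ, hσK, hσj, h4, h5, h6, hgood⟩ := hpack c₀
  refine ⟨fun a => (σ (finCongr hrk a)).comp (beta K₀ G), v, ?_, ?_, ?_, h4, h5, h6, ?_⟩
  · intro a b hab
    apply (finCongr hrk).injective
    apply hσ
    apply ringHom_eq_of_beta hsurj
    · intro x
      rw [hσK, hσK]
    · intro f
      exact DFunLike.congr_fun hab f
  · intro a x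
    rw [RingHom.comp_apply, beta_algebraMap, hσK]
    rfl
  · intro a
    rw [RingHom.comp_apply, beta_jF0, hσj]
  · intro a
    exact ⟨σ (finCongr hrk a), hgood _, rfl⟩

end

end Fermat.Agent.S48.C1
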