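import Fermat.Agent.S48.C1.Maps
import Fermat.Agent.Crux.GT.Desc

/-!
# S48 / C1 : descent from `F = E(V_e G)` to `F₀ = K(j, G)`  (conjugation trick; generic version of `Crux/GT/Desc`)
-/

set_option autoImplicit false
set_option linter.unusedSectionVars false

open Polynomial ModularCurve
open scoped IntermediateField

namespace Fermat.Agent.S48.C1

noncomputable section

open Fermat.Agent.S28 (jd evAt)
open Fermat.Agent.Crux.G
open Fermat.Agent.Crux.GT

namespace Desc

variable (K : Type) [Field K]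

/-- the image `V_e(F₀)` as a subfield of `K((x))`. -/
def G0 (e : ℕ) [NeZero e] (G : Set (LaurentSeries K)) : Subfield (Om K) :=
  (F0 K G).toSubfield.map (qExpand K e)

variable {K}

theorem mem_G0 {e : ℕ} [NeZero e] {G : Set (LaurentSeries K)} {y : Om K} :
    y ∈ G0 K e G ↔ ∃ f ∈ F0 K G, qExpand K e f = y := by
  rw [G0, Subfield.mem_map]
  rfl

theorem const_mem_G0 (e : ℕ) [NeZero e] (G : Set (LaurentSeries K)) (a : K) :
    algebraMap K (Om K) a ∈ G0 K e G :=
  mem_G0.2 ⟨algebraMap K (Om K) a, IntermediateField.algebraMap_mem _ a,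
    (qExpandAlgHomC K e).commutes a⟩

theorem jd_mem_G0 (e : ℕ) [NeZero e] (G : Set (LaurentSeries K)) : jd K e ∈ G0 K e G :=
  mem_G0.2 ⟨jqModC K, (jF0 K G).2, (Fermat.Agent.S28.jd_eq e).symm⟩

theorem gen_mem_G0 (e : ℕ) [NeZero e] (G : Set (LaurentSeries K)) {y : Om K}
    (hy : y ∈ qExpand K e '' G) : y ∈ G0 K e G := by
  obtain ⟨g, hg, rfl⟩ := hy
  exact mem_G0.2 ⟨g, IntermediateField.subset_adjoin _ _ (Set.mem_insert_of_mem _ hg), rfl⟩

variable [CharZero K] {A : ValuationSubring K}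
variable {s : ℕ} [NeZero s] {P Q : ℤ[X]}

/-- `t` is algebraic over `V_e(F₀)`. -/
theorem isAlgebraic_t (hb : IsBase s P Q) (c : Coord A s P Q) (n : ℕ) [NeZero n]
    (G : Set (LaurentSeries K)) :
    IsAlgebraic (G0 K (n * s) G) (c.tK n) := by
  have hj : jd K (n * s) ∈ G0 K (n * s) G := jd_mem_G0 (K := K) (n * s) G
  have : CharZero (Om K) := charZero_of_injective_algebraMap (algebraMap K (Om K)).injective
  have : CharZero (G0 K (n * s) G) :=
    ((G0 K (n * s) G).subtype.charZero_iff (G0 K (n * s) G).subtype.injective).mpr inferInstance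
  have hinj : Function.Injective (algebraMap ℤ (G0 K (n * s) G)) :=
    (algebraMap ℤ (G0 K (n * s) G)).injective_int
  have hev : ∀ R : ℤ[X], aeval (c.tK n) (R.map (algebraMap ℤ (G0 K (n * s) G))) = aeval (c.tK n) R := by
    intro R
    rw [aeval_def, eval₂_map, aeval_def]
    congr 1
    exact RingHom.ext_int _ _
  refine ⟨P.map (algebraMap ℤ _) - C ⟨_, hj⟩ * Q.map (algebraMap ℤ _), ?_, ?_⟩
  · intro h
    rw [sub_eq_zero] at h
    have h1 := congrArg natDegree h
    rw [natDegree_map_eq_of_injective hinj] at h1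
    have h2 := natDegree_C_mul_le (⟨_, hj⟩ : G0 K (n * s) G) (Q.map (algebraMap ℤ _))
    rw [natDegree_map_eq_of_injective hinj] at h2
    have := hb.deg
    omega
  · rw [map_sub, map_mul, hev, hev, aeval_C, rel_tK, sub_eq_zero]
    rfl

/-- every element of `F` is algebraic over `V_e(F₀)`. -/
theorem isAlgebraic_G0 (hb : IsBase s P Q) (c : Coord A s P Q) (n : ℕ) [NeZero n]
    (G : Set (LaurentSeries K)) (y : Om K)
    (hy : y ∈ FS K (c.tK n) (qExpand K (n * s) '' G)) : IsAlgebraic (G0 K (n * s) G) y := by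
  have hG : ∀ g ∈ G0 K (n * s) G, g ∈ algebraicClosure (G0 K (n * s) G) (Om K) := fun g hg =>
    IntermediateField.algebraMap_mem _ (⟨g, hg⟩ : G0 K (n * s) G)
  have hE : ∀ x ∈ EE K (c.tK n), x ∈ algebraicClosure (G0 K (n * s) G) (Om K) := by
    intro x hx
    induction hx using IntermediateField.adjoin_induction with
    | mem x hx =>
      rw [Set.mem_singleton_iff] at hx
      rw [hx, mem_algebraicClosure_iff]
      exact isAlgebraic_t hb c n G
    | algebraMap a => exact hG _ (const_mem_G0 _ _ a)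
    | add x y _ _ hx hy => exact add_mem hx hy
    | inv x _ hx => exact inv_mem hx
    | mul x y _ _ hx hy => exact mul_mem hx hy
  rw [← mem_algebraicClosure_iff]
  induction hy using IntermediateField.adjoin_induction with
  | mem x hx => exact hG _ (gen_mem_G0 _ _ hx)
  | algebraMap a => exact hE _ a.2
  | add x y _ _ hx hy => exact add_mem hx hy
  | inv x _ hx => exact inv_mem hx
  | mul x y _ _ hx hy => exact mul_mem hx hy

end Desc

variable {K : Type} [Field K] [CharZero K] {A : ValuationSubring K} [IsDiscreteValuationRing A]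
variable {s : ℕ} [NeZero s] {P Q : ℤ[X]}

/-! ### descent `F → K(j, G)` -/

theorem descent (hb : IsBase s P Q) (c : Coord A s P Q) (n : ℕ) [NeZero n]
    {π : A} (hπ : Irreducible π) {k : Type} [Field k] (r : A →+* k) (hr : Function.Surjective r)
    (hs : IsUnit (s : A)) (d : ℕ) (hd : d.Prime) (hdA : IsUnit (d : A))
    (ζ : K) (hζ : IsPrimitiveRoot ζ d) (G : Set (LaurentSeries K))
    [FiniteDimensional (EE K (c.tK n)) (FS K (c.tK n) (qExpand K (n * s) '' G))]
    (w₀ : LaurentSeries K) (hw₀ : w₀ ^ d ∈ F0 K G)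
    (hwF : qExpand K (n * s) w₀ ∈ FS K (c.tK n) (qExpand K (n * s) '' G))
    (h1 : IsPiOLx π (tE K (c.tK n))
      ((⟨_, hwF⟩ : FS K (c.tK n) (qExpand K (n * s) '' G)) - 1)) :
    w₀ ∈ F0 K G := by
  classical
  by_contra hw
  have hcz : CharZero (Om K) := charZero_of_injective_algebraMap (algebraMap K (Om K)).injective
  let φ : FS K (c.tK n) (qExpand K (n * s) '' G) →+* Om K := algebraMap _ _
  have hczF : CharZero (FS K (c.tK n) (qExpand K (n * s) '' G)) := (φ.charZero_iff φ.injective).mpr hcz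
  have hczE : CharZero (EE K (c.tK n)) :=
    charZero_of_injective_algebraMap (algebraMap K (EE K (c.tK n))).injective
  let F₀ : Subfield (FS K (c.tK n) (qExpand K (n * s) '' G)) := (Desc.G0 K (n * s) G).comap φ
  have hGF : ∀ g ∈ Desc.G0 K (n * s) G, ∃ f, φ f = g := by
    intro g hg
    obtain ⟨f, hf, rfl⟩ := Desc.mem_G0.1 hg
    exact ⟨⟨_, qExpand_mem_FS c n hb.monic G hf⟩, rfl⟩
  have halg : ∀ y, IsAlgebraic F₀ y := fun y =>
    Fermat.Agent.Crux.GT.Desc.isAlgebraic_comap φ _ hGF y (Desc.isAlgebraic_G0 hb c n G _ y.2)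
  let σ : FS K (c.tK n) (qExpand K (n * s) '' G) →+* AlgebraicClosure (Om K) := (algebraMap (Om K) _).comp φ
  let cst : K →+* FS K (c.tK n) (qExpand K (n * s) '' G) :=
    (algebraMap (EE K (c.tK n)) _).comp (algebraMap K (EE K (c.tK n)))
  have hcst : ∀ a, φ (cst a) = algebraMap K (Om K) a := fun a => rfl
  have hcst0 : ∀ a, cst a ∈ F₀ := fun a => Desc.const_mem_G0 _ _ a
  have hu : (⟨_, hwF⟩ : FS K (c.tK n) (qExpand K (n * s) '' G)) ^ d ∈ F₀ :=
    Desc.mem_G0.2 ⟨w₀ ^ d, hw₀, map_pow _ _ _⟩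
  have hu' : (⟨_, hwF⟩ : FS K (c.tK n) (qExpand K (n * s) '' G)) ∉ F₀ := by
    intro h
    obtain ⟨f, hf, hfe⟩ := Desc.mem_G0.1 h
    have : f = w₀ := qExpand_injective (n * s) hfe
    exact hw (this ▸ hf)
  obtain ⟨ε, z, hε, hεu, hz1, hzd⟩ := exists_kummer_conj F₀ halg σ d hd (cst ζ)
    (hζ.map_of_injective cst.injective) (hcst0 ζ) ⟨_, hwF⟩ hu hu'
  let inc : LaurentSeries A →+* AlgebraicClosure (Om K) :=
    (algebraMap (Om K) _).comp (coeffMap A.subtype)
  obtain ⟨B, hBmem, hBnon⟩ := exists_gaussB inc (coeffMap r) (coeffMap_surjective r hr) (by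
    intro f hf
    have h0 : coeffMap A.subtype f = 0 :=
      (algebraMap (Om K) (AlgebraicClosure (Om K))).injective (by rw [map_zero]; exact hf)
    have : f = 0 :=
      Fermat.Agent.S28.Build.coeffMap_injective A.subtype Subtype.val_injective (by rw [h0, map_zero])
    rw [this, map_zero])
  -- Gauss property of `σ`
  have hσ : ∀ p : A[X], σ (algebraMap _ _ (aeval (tE K (c.tK n)) p)) = inc (evAt (c.tA n) p) := by
    intro p
    show algebraMap (Om K) _ (((aeval (tE K (c.tK n)) p : EE K (c.tK n)) : Om K)) = _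
    rw [coe_aeval_tE]
    rfl
  have hσB : ∀ p : A[X], σ (algebraMap _ _ (aeval (tE K (c.tK n)) p)) ∈ B := fun p => by
    rw [hσ]; exact hBmem _
  have hσB' : ∀ p : A[X], σ (algebraMap _ _ (aeval (tE K (c.tK n)) p)) ∈ B.nonunits ↔ C π ∣ p :=
    fun p => by rw [hσ, hBnon, red_evAt_tA c n hπ r hr]
  -- Gauss property of `ε`
  let ρ : A →+* AlgebraicClosure (Om K) := σ.comp (cst.comp A.subtype)
  let jF : FS K (c.tK n) (qExpand K (n * s) '' G) :=
    algebraMap (EE K (c.tK n)) _ ⟨jd K (n * s), jd_mem_EE c n hb.monic⟩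
  let tF : FS K (c.tK n) (qExpand K (n * s) '' G) := algebraMap _ _ (tE K (c.tK n))
  have hφj : φ jF = jd K (n * s) := rfl
  have hjF₀ : jF ∈ F₀ := Desc.jd_mem_G0 _ _
  have hrelF : aeval tF P = jF * aeval tF Q := by
    apply φ.injective
    rw [map_mul, Fermat.Agent.Crux.GT.Desc.map_aeval_int, Fermat.Agent.Crux.GT.Desc.map_aeval_int, hφj]
    exact rel_tK c n
  have hincC : inc.comp HahnSeries.C = ρ := by
    ext a
    show algebraMap (Om K) _ (coeffMap A.subtype (HahnSeries.C a)) = algebraMap (Om K) _ (algebraMap K (Om K) a)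
    rw [Fermat.Agent.S28.Build.coeffMap_C, HahnSeries.C_apply, algebraMap_laurentSeries_eq_single]
    rfl
  have hincj : inc (qExpand A (n * s) (jqModC A)) = σ jF := by
    show algebraMap (Om K) _ (coeffMap A.subtype (qExpand A (n * s) (jqModC A))) = algebraMap (Om K) _ (φ jF)
    rw [hφj, Fermat.Agent.S28.jd_eq, Fermat.Agent.S28.Build.coeffMap_V,
      Fermat.Agent.S28.Build.coeffMap_J]
  have hjev : ∀ p : A[X], eval₂ ρ (σ jF) p = inc (evAt (qExpand A (n * s) (jqModC A)) p) := by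
    intro p
    rw [Fermat.Agent.S28.Build.evAt_apply, hom_eval₂, hincC, hincj]
  have hj : ∀ p : A[X], eval₂ ρ (σ jF) p ∈ B := fun p => by rw [hjev]; exact hBmem _
  have hj' : ∀ p : A[X], eval₂ ρ (σ jF) p ∈ B.nonunits ↔ C π ∣ p := by
    intro p
    rw [hjev, hBnon, Fermat.Agent.S28.Build.coeffMap_evAt, Fermat.Agent.S28.Build.coeffMap_V,
      Fermat.Agent.S28.Build.coeffMap_J, ← Fermat.Agent.Crux.GT.Desc.map_eq_zero_iff_C_dvd hπ r hr,
      map_eq_zero_iff _ (Fermat.Agent.S28.Build.evAt_V_J_injective (n * s))]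
  -- the polynomials over `A`
  have hczA : CharZero A := (A.subtype.charZero_iff Subtype.val_injective).mpr inferInstance
  have hιinj : Function.Injective (Int.castRingHom A) := (Int.castRingHom A).injective_int
  obtain ⟨a0, b0, k0, hab0⟩ := hb.bezout
  obtain ⟨k1, hlc0⟩ := hb.lc
  obtain ⟨su, hsu⟩ := hs
  have hab : (C ((su⁻¹ ^ k0 : Aˣ) : A) * a0.map (Int.castRingHom A)) * P.map (Int.castRingHom A)
      + (C ((su⁻¹ ^ k0 : Aˣ) : A) * b0.map (Int.castRingHom A)) * Q.map (Int.castRingHom A) = 1 := by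
    have h := congrArg (Polynomial.map (Int.castRingHom A)) hab0
    rw [Polynomial.map_add, Polynomial.map_mul, Polynomial.map_mul, Polynomial.map_C] at h
    have h2 : (Int.castRingHom A) ((s : ℤ) ^ k0) = ((su ^ k0 : Aˣ) : A) := by
      rw [map_pow, Units.val_pow_eq_pow_val, hsu]
      simp
    rw [h2] at h
    calc _ = C ((su⁻¹ ^ k0 : Aˣ) : A) * (a0.map (Int.castRingHom A) * P.map (Int.castRingHom A)
          + b0.map (Int.castRingHom A) * Q.map (Int.castRingHom A)) := by ring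
      _ = 1 := by
        rw [h, ← C_mul, ← Units.val_mul, ← mul_pow, inv_mul_cancel, one_pow, Units.val_one, C_1]
  have hdeg : (Q.map (Int.castRingHom A)).natDegree < (P.map (Int.castRingHom A)).natDegree := by
    rw [natDegree_map_eq_of_injective hιinj, natDegree_map_eq_of_injective hιinj]
    exact hb.deg
  have hlc : IsUnit (P.map (Int.castRingHom A)).leadingCoeff := by
    rw [leadingCoeff_map_of_injective hιinj, hlc0, map_pow]
    apply IsUnit.pow
    have h4 : (Int.castRingHom A) (s : ℤ) = (su : A) := by rw [hsu]; simp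
    rw [h4]
    exact su.isUnit
  have hrel : eval₂ ρ (ε tF) (P.map (Int.castRingHom A))
      = σ jF * eval₂ ρ (ε tF) (Q.map (Int.castRingHom A)) := by
    rw [Fermat.Agent.Crux.GT.Desc.eval₂_map_int, Fermat.Agent.Crux.GT.Desc.eval₂_map_int, ← hε jF hjF₀, ← Fermat.Agent.Crux.GT.Desc.map_aeval_int ε tF P,
      ← Fermat.Agent.Crux.GT.Desc.map_aeval_int ε tF Q, ← map_mul, hrelF]
  obtain ⟨hεt, hεt'⟩ := gauss_of_rel hπ ρ B (σ jF) (ε tF) _ _ _ _ hrel hab hdeg hlc hj hj'
  have hεev : ∀ p : A[X], ε (algebraMap _ _ (aeval (tE K (c.tK n)) p)) = eval₂ ρ (ε tF) p := by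
    intro p
    have h3 : (ε.comp (algebraMap (EE K (c.tK n)) (FS K (c.tK n) (qExpand K (n * s) '' G)))).comp
        (algebraMap A (EE K (c.tK n))) = ρ := by
      ext a
      exact hε _ (hcst0 a)
    rw [aeval_def, ← h3]
    exact hom_eval₂ p (algebraMap A (EE K (c.tK n)))
      (ε.comp (algebraMap (EE K (c.tK n)) (FS K (c.tK n) (qExpand K (n * s) '' G)))) (tE K (c.tK n))
  have hεB : ∀ p : A[X], ε (algebraMap _ _ (aeval (tE K (c.tK n)) p)) ∈ B := fun p => by
    rw [hεev]; exact hεt p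
  have hεB' : ∀ p : A[X], ε (algebraMap _ _ (aeval (tE K (c.tK n)) p)) ∈ B.nonunits ↔ C π ∣ p :=
    fun p => by rw [hεev]; exact hεt' p
  -- conclusion
  have h2 := mem_nonunits_of_isPiOLx hπ B σ hσB hσB' h1
  have h3 := mem_nonunits_of_isPiOLx hπ B ε hεB hεB' h1
  rw [map_sub, map_one] at h2 h3
  rw [hεu] at h3
  refine Fermat.Agent.Crux.GT.Desc.core B d hd ?_ _ z hzd hz1 h2 h3
  rw [← map_natCast inc d, hBnon]
  intro h
  obtain ⟨du, hdu⟩ := hdA
  have h5 : (d : LaurentSeries A) * HahnSeries.C ((du⁻¹ : Aˣ) : A) = 1 := by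
    rw [← map_natCast (HahnSeries.C : A →+* LaurentSeries A), ← map_mul, ← hdu, Units.mul_inv,
      map_one]
  have h6 := congrArg (coeffMap r) h5
  rw [map_mul, h, zero_mul, map_one] at h6
  exact zero_ne_one h6

end

end Fermat.Agent.S48.C1
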