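import Fermat.Agent.S24.FF.PlaceBasic
import Fermat.Agent.ES.Defs

/-!
# S48 / C1 : `d ∣ div W` seen through an embedding into Laurent series (generic version of `Crux/GM/Place`)
-/

set_option autoImplicit false

open AlgebraicCurve ModularCurve

namespace Fermat.Agent.S48.C1

theorem dvd_order_of_forall_place {k F : Type*} [Field k] [Field F] [Algebra k F] (d : ℕ) (W : F)
    (hW0 : W ≠ 0) (hdiv : ∀ P : Place k F, (d : ℤ) ∣ P.ord W)
    {Ω : Type*} [Field Ω] (σ : F →+* LaurentSeries Ω)
    (hσ : ∀ c : k, c ≠ 0 → (σ (algebraMap k F c)).order = 0) :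
    (d : ℤ) ∣ (σ W).order := by
  have hinj : ∀ f : F, f ≠ 0 → σ f ≠ 0 := fun f hf => (map_ne_zero σ).mpr hf
  by_cases hnt : ∃ f : F, f ≠ 0 ∧ (σ f).order ≠ 0
  · obtain ⟨v, c, -, hv⟩ := S24.FF.exists_place_of_ordFun (K := k) (fun f : F => (σ f).order)
      (fun f g hf hg => by
        show (σ (f * g)).order = _
        rw [map_mul, HahnSeries.order_mul (hinj f hf) (hinj g hg)])
      (fun f g _ _ hfg => by
        show min (σ f).order (σ g).order ≤ (σ (f + g)).order
        rw [map_add]
        exact HahnSeries.min_order_le_order_add (by rw [← map_add]; exact hinj _ hfg))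
      hσ hnt
    have h1 : (σ W).order = c * v.ord W := hv W hW0
    rw [h1]
    exact Dvd.dvd.mul_left (hdiv v) _
  · push Not at hnt
    rw [hnt W hW0]
    exact dvd_zero _

/-- the cusp `∞`. -/
theorem dvd_order_coe {k : Type*} [Field k] (E : IntermediateField k (LaurentSeries k)) (d : ℕ)
    (W : E) (hW0 : W ≠ 0) (hdiv : ∀ P : Place k E, (d : ℤ) ∣ P.ord W) :
    (d : ℤ) ∣ (W : LaurentSeries k).order := by
  refine dvd_order_of_forall_place d W hW0 hdiv (E.val : E →+* LaurentSeries k) ?_
  intro c hc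
  show (algebraMap k (LaurentSeries k) c).order = 0
  rw [algebraMap_laurentSeries_eq_single]
  exact HahnSeries.order_single hc

end Fermat.Agent.S48.C1
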