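import Fermat.Agent.S48.C1.Main
import Fermat.Agent.S48.C1.Deg
import Fermat.Agent.S48.C1.Place
import Fermat.Agent.Crux.GT.Export

/-!
# S48 / C1 : abstract CRUX over `ℚ̄`  (descent `(ℚ̄, A) → (K₀, A₀)`; generic version of `Crux/Descent`)
-/

set_option autoImplicit false

open Polynomial ModularCurve AlgebraicCurve
open scoped IntermediateField

namespace Fermat.Agent.S48.C1

noncomputable section

open Fermat.Agent.ES (Qb)
open Fermat.Agent.S24 (iotaC)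
open Fermat.Agent.Crux

theorem HasPacks.mono {K : Type} [Field K] [Algebra K Qb] {F₀ : IntermediateField K (LaurentSeries K)}
    {jK : F₀} {good good' : (F₀ →+* LaurentSeries ℂ) → Prop} (h : HasPacks F₀ jK good)
    (hg : ∀ σ : F₀ →+* LaurentSeries ℂ,
      (∀ x : K, σ (algebraMap K F₀ x) = HahnSeries.C (iotaC (algebraMap K Qb x))) →
      good σ → good' σ) : HasPacks F₀ jK good' := by
  intro c₀
  obtain ⟨σ, v, h1, h2, h3, h4, h5, h6, h7⟩ := h c₀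
  exact ⟨σ, v, h1, h2, h3, h4, h5, h6, fun a => hg _ (h2 a) (h7 a)⟩

/-- **Abstract CRUX over `ℚ̄`.** -/
theorem crux_of_data (G : Set (LaurentSeries Qb)) (hG : G.Finite) (hnf : ∀ g ∈ G, NFCoeff g)
    (n p d : ℕ) [NeZero n] (hp : p.Prime) (hd : d.Prime) (hdp : d ≠ p)
    (A : ValuationSubring Qb) (hA : A.LiesOverPrime p)
    (hcusp : ∀ g ∈ G, HasCuspPolyQ A n (qExpand Qb n g))
    (hpack : HasPacks (F0 Qb G) (jF0 Qb G) (fun _ => True))
    (y₁ y₂ : LaurentSeries A)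
    (h₁ : coeffMap A.subtype y₁ ∈ F0 Qb G) (h₂ : coeffMap A.subtype y₂ ∈ F0 Qb G)
    (hred : coeffMap (IsLocalRing.residue A) y₁ = coeffMap (IsLocalRing.residue A) y₂)
    (hne : coeffMap (IsLocalRing.residue A) y₂ ≠ 0)
    (hdiv : ∀ P : Place Qb (F0 Qb G), (d : ℤ) ∣ P.ord ((⟨_, h₁⟩ : F0 Qb G) / ⟨_, h₂⟩)) :
    ∃ s : F0 Qb G, s ^ d = (⟨_, h₁⟩ : F0 Qb G) / ⟨_, h₂⟩ := by
  classical
  set W : F0 Qb G := (⟨_, h₁⟩ : F0 Qb G) / ⟨_, h₂⟩ with hWdef
  have hWcoe : (W : LaurentSeries Qb) = coeffMap A.subtype y₁ / coeffMap A.subtype y₂ := by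
    rw [hWdef, IntermediateField.coe_div]
  have hinjA : Function.Injective (coeffMap A.subtype) :=
    Fermat.Agent.S28.Build.coeffMap_injective A.subtype Subtype.val_injective
  have hy₂ : coeffMap A.subtype y₂ ≠ 0 := by
    intro h
    apply hne
    rw [hinjA (h.trans (map_zero _).symm), map_zero]
  have hy₁ : coeffMap A.subtype y₁ ≠ 0 := by
    intro h
    apply hne
    rw [← hred, hinjA (h.trans (map_zero _).symm), map_zero]
  have hW0 : W ≠ 0 := by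
    intro h
    have := congrArg (Subtype.val) h
    rw [hWcoe] at this
    exact div_ne_zero hy₁ hy₂ this
  obtain ⟨c₀, hc₀⟩ := IsAlgClosed.exists_pow_nat_eq
    (coeffMap A.subtype y₁ / coeffMap A.subtype y₂).leadingCoeff hd.pos
  obtain ⟨zd, hzd⟩ := GT.Export_exists_primitiveRoot d hd.pos
  obtain ⟨z3, hz3⟩ := GT.Export_exists_primitiveRoot 3 (by norm_num)
  -- the number field
  obtain ⟨L₁, hL₁, hm₁⟩ := exists_model hnf h₁
  obtain ⟨L₂, hL₂, hm₂⟩ := exists_model hnf h₂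
  obtain ⟨L₃, hL₃, hm₃⟩ := exists_common_field G hG
    (fun g K₀ => ∀ y₀ : LaurentSeries K₀, coeffMap (algebraMap K₀ Qb) y₀ = qExpand Qb n g →
        HasCuspPoly (IsLocalRing.residue (A0 K₀ A)) n y₀)
    (fun g hg => (hcusp g hg).descend)
  obtain ⟨L₄, hL₄, hm₄⟩ := exists_common_field G hG
    (fun g K₀ => ∃ u : LaurentSeries K₀, coeffMap (algebraMap K₀ Qb) u = g)
    (fun g hg => by
      obtain ⟨L, hL, hLc⟩ := hnf g hg
      exact ⟨L, hL, fun K₀ hK => lift_series g fun m => hK (hLc m)⟩)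
  have hL₅ : FiniteDimensional ℚ (IntermediateField.adjoin ℚ (({c₀, zd, z3} : Finset Qb) : Set Qb)) :=
    IntermediateField.finiteDimensional_adjoin fun x _ =>
      ((AlgebraicClosure.isAlgebraic ℚ).isAlgebraic x).isIntegral
  set L₅ := IntermediateField.adjoin ℚ (({c₀, zd, z3} : Finset Qb) : Set Qb) with hL₅def
  have hmem₅ : ∀ x ∈ ({c₀, zd, z3} : Finset Qb), x ∈ L₅ := fun x hx =>
    IntermediateField.subset_adjoin _ _ (Finset.mem_coe.mpr hx)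
  set K₀ : IntermediateField ℚ Qb := L₁ ⊔ L₂ ⊔ L₃ ⊔ L₄ ⊔ L₅ with hK₀
  have hfd : FiniteDimensional ℚ K₀ := by
    have a1 := IntermediateField.finiteDimensional_sup L₁ L₂
    have a2 := IntermediateField.finiteDimensional_sup (L₁ ⊔ L₂) L₃
    have a3 := IntermediateField.finiteDimensional_sup (L₁ ⊔ L₂ ⊔ L₃) L₄
    exact IntermediateField.finiteDimensional_sup (L₁ ⊔ L₂ ⊔ L₃ ⊔ L₄) L₅
  have hle₁ : L₁ ≤ K₀ := le_sup_left.trans (le_sup_left.trans (le_sup_left.trans le_sup_left))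
  have hle₂ : L₂ ≤ K₀ := le_sup_right.trans (le_sup_left.trans (le_sup_left.trans le_sup_left))
  have hle₃ : L₃ ≤ K₀ := le_sup_right.trans (le_sup_left.trans le_sup_left)
  have hle₄ : L₄ ≤ K₀ := le_sup_right.trans le_sup_left
  have hle₅ : L₅ ≤ K₀ := le_sup_right
  have hnfK : NumberField K₀ := ⟨⟩
  obtain ⟨u₁, hu₁, hu₁'⟩ := hm₁ K₀ hle₁
  obtain ⟨u₂, hu₂, hu₂'⟩ := hm₂ K₀ hle₂
  have hsurj := hm₄ K₀ hle₄
  have hφ : Function.Injective (algebraMap K₀ Qb) := (algebraMap K₀ Qb).injective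
  have hdvr : IsDiscreteValuationRing (A0 K₀ A) :=
    isDiscreteValuationRing_of_numberField _ (A0_ne_top K₀ A hp hA)
  obtain ⟨z₁, hz₁, hz₁'⟩ := exists_A0_series K₀ A u₁ y₁ hu₁'
  obtain ⟨z₂, hz₂, hz₂'⟩ := exists_A0_series K₀ A u₂ y₂ hu₂'
  have hz₁s : coeffMap (A0 K₀ A).subtype z₁ = u₁ := hz₁
  have hz₂s : coeffMap (A0 K₀ A).subtype z₂ = u₂ := hz₂
  have hWK : coeffMap (algebraMap K₀ Qb)
      (coeffMap (A0 K₀ A).subtype z₁ / coeffMap (A0 K₀ A).subtype z₂)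
      = coeffMap A.subtype y₁ / coeffMap A.subtype y₂ := by
    rw [map_div₀, hz₁s, hz₂s, hu₁', hu₂']
  have e1 : coeffMap (A0 K₀ A).subtype z₁ ∈ F0 K₀ (Gd K₀ G) := by rw [hz₁s]; exact hu₁
  have e2 : coeffMap (A0 K₀ A).subtype z₂ ∈ F0 K₀ (Gd K₀ G) := by rw [hz₂s]; exact hu₂
  have hfdQ : FiniteDimensional Qb⟮jF0 Qb G⟯ (F0 Qb G) :=
    finiteDimensional_F0 G hG (IsLocalRing.residue A) n fun g hg => (hcusp g hg).hasCuspPoly
  have hβW : beta K₀ G ⟨_, div_mem e1 e2⟩ = W := Subtype.ext (by rw [beta_coe, hWK, hWcoe])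
  obtain ⟨s, hs, hsd⟩ := coreK n p hp K₀ (A0 K₀ A) (IsLocalRing.ResidueField (A0 K₀ A))
    (IsLocalRing.residue (A0 K₀ A)) IsLocalRing.residue_surjective (residue_A0_natCast K₀ A hA)
    d hd hdp
    (GT.Export_descend_primitiveRoot hzd ⟨⟨zd, hle₅ (hmem₅ zd (by simp))⟩, rfl⟩)
    (GT.Export_descend_primitiveRoot hz3 ⟨⟨z3, hle₅ (hmem₅ z3 (by simp))⟩, rfl⟩)
    (Gd K₀ G) (Gd_finite hG)
    (fun g hg => hm₃ K₀ hle₃ _ hg _ (coeffMap_qExpand' _ _ _))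
    z₁ z₂ e1 e2
    (coeffMap_residue_A0_eq K₀ A z₁ z₂ y₁ y₂ hz₁' hz₂' hred)
    (coeffMap_residue_A0_ne_zero K₀ A z₂ y₂ hz₂' hne)
    ⟨⟨c₀, hle₅ (hmem₅ c₀ (by simp))⟩, by
      apply hφ
      rw [map_pow, ← leadingCoeff_coeffMap _ hφ, hWK, ← hc₀]
      rfl⟩
    (by
      rw [← order_coeffMap _ hφ, hWK, ← hWcoe]
      exact dvd_order_coe (F0 Qb G) d W hW0 hdiv)
    ((HasPacks.descend hsurj (fun σ' => (d : ℤ) ∣ (σ' W).order)
      (hpack.mono fun σ hσ _ => dvd_order_of_forall_place d W hW0 hdiv σ fun c hc => by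
        rw [hσ]
        exact HahnSeries.order_C)).mono fun σ _ hσ => by
          obtain ⟨σ', h1, rfl⟩ := hσ
          rw [RingHom.comp_apply, hβW]
          exact h1)
  refine ⟨⟨coeffMap (algebraMap K₀ Qb) s, coeffMap_mem_F0 hs⟩, ?_⟩
  apply Subtype.ext
  rw [IntermediateField.coe_pow, hWcoe]
  show (coeffMap (algebraMap K₀ Qb) s) ^ d = _
  rw [← map_pow, hsd, hWK]

end

end Fermat.Agent.S48.C1
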