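import Fermat.Agent.S48.C1.DescQ
import Fermat.Agent.S48.B1.Hecke

/-!
# S48 / C1 : abstract CRUX in the shape `B1.Crux1`
-/

set_option autoImplicit false

open Polynomial ModularCurve AlgebraicCurve
open scoped IntermediateField

namespace Fermat.Agent.S48.C1

noncomputable section

open Fermat.Agent.ES (Qb)

theorem NFCoeff.of_fgCoeff {x : LaurentSeries Qb} (h : Fermat.Agent.ES.Pivot.FGCoeff x) :
    NFCoeff x := by
  obtain ⟨M, ⟨S, hS⟩, hM⟩ := h
  refine ⟨IntermediateField.adjoin ℚ (S : Set Qb),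
    IntermediateField.finiteDimensional_adjoin fun x _ =>
      ((AlgebraicClosure.isAlgebraic ℚ).isAlgebraic x).isIntegral, fun n => ?_⟩
  have h1 := hM n
  rw [← hS] at h1
  have key : ∀ y ∈ Submodule.span ℤ (S : Set Qb), y ∈ IntermediateField.adjoin ℚ (S : Set Qb) := by
    intro y hy
    induction hy using Submodule.span_induction with
    | mem y hy => exact IntermediateField.subset_adjoin _ _ hy
    | zero => exact zero_mem _
    | add y z _ _ hy hz => exact add_mem hy hz
    | smul a y _ hy => exact zsmul_mem hy a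
  exact key _ h1

/-- **CRUX for a `QField`** generated by `j` and a finite set `G`, from cusp polynomials and packs. -/
theorem crux1_of_data (Q : B1.QField) (G : Set (LaurentSeries Qb)) (hG : G.Finite)
    (hE : Q.E = F0 Qb G) (hnf : ∀ g ∈ G, NFCoeff g)
    (n p d : ℕ) [NeZero n] (hp : p.Prime) (hd : d.Prime) (hdp : d ≠ p)
    (hcusp : ∀ A : ValuationSubring Qb, A.LiesOverPrime p →
      ∀ g ∈ G, HasCuspPolyQ A n (qExpand Qb n g))
    (hpack : HasPacks (F0 Qb G) (jF0 Qb G) (fun _ => True)) :
    B1.Crux1 Q p d := by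
  obtain ⟨E, gens, E_eq, fg, level, gal_gens⟩ := Q
  dsimp only at hE
  subst hE
  intro A hA y₁ y₂ h₁ h₂ hred hne hdiv
  exact crux_of_data G hG hnf n p d hp hd hdp A hA (hcusp A hA) hpack y₁ y₂ h₁ h₂ hred hne hdiv

end

end Fermat.Agent.S48.C1
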