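import Fermat.Agent.S48.C1.Basic
import Fermat.Agent.Crux.GT.H0

/-!
# S48 / C1 : (H0) for the generic tower (port of `Crux/GT/H0`)
-/

set_option autoImplicit false

open Polynomial ModularCurve
open scoped IntermediateField

namespace Fermat.Agent.S48.C1

noncomputable section

open Fermat.Agent.Crux.GT

variable {K : Type} [Field K] [CharZero K] {A : ValuationSubring K} [IsDiscreteValuationRing A]

theorem H0_FS (t : Om K) (S : Set (Om K)) (z : FS K t S) (hz : IsIntegral A z) :
    z ∈ Set.range (algebraMap A (FS K t S)) := by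
  obtain ⟨p, hp, hpz⟩ := hz
  have h1 := congrArg (algebraMap (FS K t S) (Om K)) hpz
  rw [map_zero, Polynomial.hom_eval₂] at h1
  obtain ⟨a, ha⟩ := const_of_isIntegral (z : Om K) p hp h1
  exact ⟨a, Subtype.ext ha.symm⟩

theorem H0_LS (t : Om K) (S : Set (Om K)) (w : Om K) (z : LS K t S w) (hz : IsIntegral A z) :
    z ∈ Set.range (algebraMap A (LS K t S w)) := by
  obtain ⟨p, hp, hpz⟩ := hz
  have h1 := congrArg (algebraMap (LS K t S w) (Om K)) hpz
  rw [map_zero, Polynomial.hom_eval₂] at h1
  obtain ⟨a, ha⟩ := const_of_isIntegral (z : Om K) p hp h1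
  exact ⟨a, Subtype.ext ha.symm⟩

end

end Fermat.Agent.S48.C1
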