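import Fermat.Agent.S48.C1.Basic
import Fermat.Agent.Crux.GT.Extend
import Fermat.Agent.Crux.G.UnitDiscEmb

/-!
# S48 / C1 : (H1) for `F = E(S)` from the cusp polynomials (port of `Crux/GT/H1`)

Apply `G.tracePerfectx_of_embeddings` with `O = A((x))`, `Ω = K((x))`, `κ = k((x))`, `inc = coeffMap A.subtype`,
`red = coeffMap r`, `θ = evAt (c.tA n)` (`GT.red_evAt_tA`, `GT.coe_aeval_tE`), `ι = E ↪ K((x))`.
The family `τ : Fin [F:E] → F →+* K((x))` comes from `GT.all_embeddings` (`Mb` = algebraic closure of `K((x))`, generating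
set `{y : F | (y : K((x))) ∈ S}`): an embedding `ε : F → Mb` extending `ι` fixes `j(x^e) ∈ E` and the constants, so
`0 = ε (Φ(j(x^e), y)) = Φ(j(x^e), ε y) = ∏ i, (ε y - Y i)`, so `ε y = Y i` for some `i` (`conj_mem` below).
`hsep`: two different embeddings differ on a generator `y` (`FS_subfield_eq_top` + `RingHom.eqLocusField`), all `τ_c y` are
of the form `inc (Y i)`; equal reductions force `Y i = Y i'`.  Compare `Crux/GT/H1.lean` (same structure, with
`exists_conj`, `exists_integral_lifts` replaced by `conj_mem`).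
-/

set_option autoImplicit false

open Polynomial ModularCurve
open scoped IntermediateField

namespace Fermat.Agent.S48.C1

noncomputable section

open Fermat.Agent.S28 (jd evAt)
open Fermat.Agent.Crux.G
open Fermat.Agent.Crux.GT

/-- `F` is generated over `E` by `S`, in the form used by `all_embeddings`. -/
theorem FS_subfield_eq_top {K : Type} [Field K] (t : Om K) (S : Set (Om K)) (T : Subfield (FS K t S))
    (h1 : ∀ c, algebraMap (EE K t) (FS K t S) c ∈ T)
    (h2 : {y : FS K t S | (y : Om K) ∈ S} ⊆ T) : T = ⊤ := by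
  let T' : IntermediateField (EE K t) (Om K) :=
    (T.map (FS K t S).val.toRingHom).toIntermediateField (fun x => by
      rw [Subfield.mem_map]
      exact ⟨algebraMap (EE K t) (FS K t S) x, h1 x, rfl⟩)
  have hle : FS K t S ≤ T' := by
    rw [IntermediateField.adjoin_le_iff]
    intro y hy
    have hyF : y ∈ FS K t S := IntermediateField.subset_adjoin _ _ hy
    exact ⟨⟨y, hyF⟩, h2 hy, rfl⟩
  rw [eq_top_iff]
  intro y _
  obtain ⟨y', hy', hyy'⟩ := hle y.2
  have : y' = y := Subtype.ext hyy'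
  exact this ▸ hy'

variable {K : Type} [Field K] [CharZero K] {A : ValuationSubring K} [IsDiscreteValuationRing A]
variable {s : ℕ} [NeZero s] {P Q : ℤ[X]}

omit [CharZero K] [IsDiscreteValuationRing A] in
/-- the evaluation `A[X] → E`, `X ↦ j(x^e)`. -/
theorem exists_evE (hQ : Q.Monic) (c : Coord A s P Q) (n : ℕ) [NeZero n] :
    ∃ ψ : A[X] →+* EE K (c.tK n),
      (algebraMap (EE K (c.tK n)) (Om K)).comp ψ
        = (coeffMap A.subtype).comp (evAt (qExpand A (n * s) (jqModC A))) := by
  refine ⟨((aeval (⟨jd K (n * s), jd_mem_EE c n hQ⟩ : EE K (c.tK n)) : A[X] →ₐ[A] EE K (c.tK n)) :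
      A[X] →+* EE K (c.tK n)), ?_⟩
  refine Polynomial.ringHom_ext (fun a => ?_) ?_
  · simp only [RingHom.comp_apply, RingHom.coe_coe, aeval_C, Fermat.Agent.S28.Build.evAt_C,
      Fermat.Agent.S28.Build.coeffMap_C, Fermat.Agent.S28.C_eq_algebraMap]
    rfl
  · simp only [RingHom.comp_apply, RingHom.coe_coe, aeval_X, Fermat.Agent.S28.Build.evAt_X]
    rw [coeffMap_qExpand', coeffMap_jqModC]
    show jd K (n * s) = _
    rw [Fermat.Agent.S28.jd_eq]

/-- conjugates of a generator: any embedding of `F` extending `E ↪ K((x)) → Ω` maps a root of the cusp polynomial to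
one of the `Y i`. -/
theorem conj_mem (hQ : Q.Monic) (c : Coord A s P Q) (n : ℕ) [NeZero n] (S : Set (Om K))
    (Φ : A[X][X]) {ι : Type} [Fintype ι] (Y : ι → LaurentSeries A)
    (hprod : Φ.map (evAt (qExpand A (n * s) (jqModC A))) = ∏ i, (X - C (Y i)))
    (y : FS K (c.tK n) S) (i₀ : ι) (hy : coeffMap A.subtype (Y i₀) = (y : Om K))
    {Ω : Type*} [Field Ω] (inc : Om K →+* Ω) (ε : FS K (c.tK n) S →+* Ω)
    (hε : ∀ a, ε (algebraMap (EE K (c.tK n)) (FS K (c.tK n) S) a)
      = inc (algebraMap (EE K (c.tK n)) (Om K) a)) :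
    ∃ i, ε y = inc (coeffMap A.subtype (Y i)) := by
  classical
  obtain ⟨ψ, hψ⟩ := exists_evE (K := K) hQ c n
  have hroot : eval₂ ((algebraMap (EE K (c.tK n)) (FS K (c.tK n) S)).comp ψ) y Φ = 0 := by
    apply (algebraMap (FS K (c.tK n) S) (Om K)).injective
    rw [map_zero, Polynomial.hom_eval₂]
    have h1 : (algebraMap (FS K (c.tK n) S) (Om K)).comp
        ((algebraMap (EE K (c.tK n)) (FS K (c.tK n) S)).comp ψ)
        = (coeffMap A.subtype).comp (evAt (qExpand A (n * s) (jqModC A))) := by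
      rw [← hψ]
      rfl
    rw [h1]
    have h2 : algebraMap (FS K (c.tK n) S) (Om K) y = coeffMap A.subtype (Y i₀) := hy.symm
    rw [h2, ← Polynomial.eval₂_map, hprod, Polynomial.eval₂_at_apply, eval_prod,
      Finset.prod_eq_zero (Finset.mem_univ i₀) (by simp), map_zero]
  have h3 := congrArg ε hroot
  rw [map_zero, Polynomial.hom_eval₂] at h3
  have h4 : ε.comp ((algebraMap (EE K (c.tK n)) (FS K (c.tK n) S)).comp ψ)
      = (inc.comp (coeffMap A.subtype)).comp (evAt (qExpand A (n * s) (jqModC A))) := by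
    rw [RingHom.comp_assoc, ← hψ]
    refine RingHom.ext fun a => ?_
    simp only [RingHom.comp_apply]
    exact hε _
  rw [h4, ← Polynomial.eval₂_map, hprod, ← Polynomial.eval_map, Polynomial.map_prod, eval_prod,
    Finset.prod_eq_zero_iff] at h3
  obtain ⟨i, -, hi⟩ := h3
  refine ⟨i, ?_⟩
  simpa [sub_eq_zero] using hi

/-! ### (H1) -/

theorem tracePerfectx_FS (hb : IsBase s P Q) (c : Coord A s P Q) (n : ℕ) [NeZero n]
    {π : A} (hπ : Irreducible π) {k : Type} [Field k] (r : A →+* k) (hr : Function.Surjective r)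
    (S : Set (Om K)) (hS : S.Finite) (hc : ∀ y ∈ S, HasCuspPoly r (n * s) y) :
    TracePerfectx (FS K (c.tK n) S) π (tE K (c.tK n)) := by
  classical
  have hfd : FiniteDimensional (EE K (c.tK n)) (FS K (c.tK n) S) :=
    finiteDimensional_FS c n hb.monic r S hS hc
  set t : Om K := c.tK n with ht
  let ι : EE K t →+* Om K := algebraMap (EE K t) (Om K)
  obtain ⟨τ, hτinj, hτι⟩ := all_embeddings (Mb := AlgebraicClosure (Om K)) ι
    {y : FS K t S | (y : Om K) ∈ S} (FS_subfield_eq_top t S) (by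
      intro ε hε y hy
      obtain ⟨Φ, J, _, Y, -, hprod, ⟨i₀, hi₀⟩, -⟩ := hc _ hy
      obtain ⟨i, hi⟩ := conj_mem hb.monic c n S Φ Y hprod y i₀ hi₀
        (algebraMap (Om K) (AlgebraicClosure (Om K))) ε hε
      exact ⟨_, hi.symm⟩)
  refine tracePerfectx_of_embeddings hπ (transcendental_tE c n) (hgen_tE t)
    (coeffMap A.subtype) ?_ (coeffMap r) (evAt (c.tA n)) (red_evAt_tA c n hπ r hr) ι
    (coe_aeval_tE c n) (Fintype.card_fin _) τ hτι ?_
  · exact Fermat.Agent.S28.Build.coeffMap_injective _ Subtype.val_injective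
  · intro a b hab
    have hex : ∃ y : FS K t S, (y : Om K) ∈ S ∧ τ a y ≠ τ b y := by
      by_contra hcon
      push Not at hcon
      apply hab
      apply hτinj
      have htop := FS_subfield_eq_top t S ((τ a).eqLocusField (τ b))
        (fun x => by
          show τ a _ = τ b _
          rw [hτι, hτι])
        (fun y hy => hcon y hy)
      refine RingHom.ext fun y => ?_
      have : y ∈ (τ a).eqLocusField (τ b) := by rw [htop]; trivial
      exact this
    obtain ⟨y, hyS, hne⟩ := hex
    obtain ⟨Φ, J, _, Y, -, hprod, ⟨i₀, hi₀⟩, hsep⟩ := hc _ hyS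
    have hch : ∀ j, ∃ i, τ j y = coeffMap A.subtype (Y i) := fun j =>
      conj_mem hb.monic c n S Φ Y hprod y i₀ hi₀ (RingHom.id (Om K)) (τ j) (hτι j)
    choose f hf using hch
    refine ⟨y, fun j => Y (f j), ?_, hf, fun h => hne ?_⟩
    · have : y = ⟨(y : Om K), gen_mem_FS hyS⟩ := rfl
      rw [this]
      exact isOLx_gen' c n hπ hb.monic S hyS (hc _ hyS)
    · rw [hf a, hf b, hsep _ _ h]

end

end Fermat.Agent.S48.C1
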