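import Fermat.Agent.S48.C1.Maps
import Fermat.Agent.Crux.GT.Extend
import Fermat.Agent.Crux.GT.Root
import Fermat.Agent.Crux.GT.PF.Iota

/-!
# S48 / C1 : the point families of `F` (input of (H2)) from the packs of `F₀`  (generic version of `Crux/GT/PF`)
-/

set_option autoImplicit false

open Polynomial ModularCurve
open scoped IntermediateField

namespace Fermat.Agent.S48.C1

noncomputable section

open Fermat.Agent.S28 (jd evAt)
open Fermat.Agent.Crux.G
open Fermat.Agent.Crux.GT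
open Fermat.Agent.ES (Qb)
open Fermat.Agent.S24 (iotaC)

variable {K : Type} [Field K] [CharZero K] {A : ValuationSubring K} [IsDiscreteValuationRing A]
variable {s : ℕ} [NeZero s] {P Q : ℤ[X]}

namespace PFa

theorem map_aeval_int {R S : Type*} [CommRing R] [CommRing S] [Algebra ℤ R] [Algebra ℤ S]
    (f : R →+* S) (x : R) (p : ℤ[X]) :
    f (aeval x p) = aeval (f x) p := by
  rw [aeval_def, aeval_def, hom_eval₂]
  congr 1
  exact RingHom.ext_int _ _

theorem aeval_map_int {R S : Type*} [CommRing R] [CommRing S] [Algebra R S] [Algebra ℤ S]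
    (x : S) (p : ℤ[X]) :
    aeval x (p.map (Int.castRingHom R)) = aeval x p := by
  rw [aeval_def, aeval_def, eval₂_map]
  congr 1
  exact RingHom.ext_int _ _

/-- the local coordinate `T`. -/
theorem exists_T (hb : IsBase s P Q) (c₁ : Qb) (hc₁ : aeval c₁ Q ≠ 0)
    (v : PowerSeries ℂ)
    (h0 : aeval c₁ P / aeval c₁ Q = 0 → v.order = 3)
    (h1 : aeval c₁ P / aeval c₁ Q = 1728 → v.order = 2)
    (h2 : aeval c₁ P / aeval c₁ Q ≠ 0 → aeval c₁ P / aeval c₁ Q ≠ 1728 → v.order = 1) :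
    ∃ T : PowerSeries ℂ, PowerSeries.constantCoeff T = iotaC c₁ ∧
      (T - PowerSeries.C (iotaC c₁)).order = 1 ∧
      aeval T P = (PowerSeries.C (iotaC (aeval c₁ P / aeval c₁ Q)) + v) * aeval T Q := by
  have hP' : aeval (iotaC c₁) P = iotaC (aeval c₁ P) := (map_aeval_int iotaC c₁ P).symm
  have hQ' : aeval (iotaC c₁) Q = iotaC (aeval c₁ Q) := (map_aeval_int iotaC c₁ Q).symm
  have hQne : aeval (iotaC c₁) Q ≠ 0 := by rw [hQ']; exact (map_ne_zero iotaC).2 hc₁
  obtain ⟨e, H, hH, hHc, he3, he2, he1⟩ := hb.mult ℂ (iotaC c₁) hQne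
  have hee : v.order = e ∧ 0 < e := by
    by_cases hA : aeval c₁ P = 0
    · rw [he3 (by rw [hP', hA, map_zero]), h0 (by rw [hA, zero_div])]
      exact ⟨rfl, by norm_num⟩
    by_cases hB : aeval c₁ P = 1728 * aeval c₁ Q
    · rw [he2 (by rw [hP', hQ', hB, map_mul, map_ofNat]), h1 (by rw [hB, mul_div_cancel_right₀ _ hc₁])]
      exact ⟨rfl, by norm_num⟩
    · rw [he1 (by rw [hP']; exact (map_ne_zero iotaC).2 hA) (by
          rw [hP', hQ', ← map_ofNat iotaC 1728, ← map_mul]
          exact fun h => hB (iotaC.injective h)),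
        h2 (div_ne_zero hA hc₁) (by
          intro h
          exact hB ((div_eq_iff hc₁).1 h))]
      exact ⟨rfl, by norm_num⟩
  obtain ⟨T, hT0, hT1, hT⟩ := exists_local_root (P.map (Int.castRingHom ℂ))
    (Q.map (Int.castRingHom ℂ)) H (iotaC c₁) (aeval (iotaC c₁) P / aeval (iotaC c₁) Q) e hee.2 hH hHc
    (by
      have : (Q.map (Int.castRingHom ℂ)).eval (iotaC c₁) = aeval (iotaC c₁) Q := by
        rw [← aeval_map_int (R := ℂ), coe_aeval_eq_eval]
      rw [this]; exact hQne) v hee.1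
  refine ⟨T, hT0, hT1, ?_⟩
  rw [aeval_map_int, aeval_map_int, hP', hQ', ← map_div₀] at hT
  exact hT

end PFa

/-! ### (H2) -/

theorem pointFam_FS [Algebra K Qb] (hb : IsBase s P Q) (c : Coord A s P Q) (n : ℕ) [NeZero n]
    (G : Set (LaurentSeries K))
    [FiniteDimensional K⟮jF0 K G⟯ (F0 K G)]
    [FiniteDimensional (EE K (c.tK n)) (FS K (c.tK n) (qExpand K (n * s) '' G))]
    (c₁ : Qb) (hc₁ : aeval c₁ Q ≠ 0) (good : (F0 K G →+* LaurentSeries ℂ) → Prop)
    (hpack : HasPacks (F0 K G) (jF0 K G) good) :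
    PointFam (FS K (c.tK n) (qExpand K (n * s) '' G)) (rhoA A) (tE K (c.tK n)) (iotaC c₁)
      (fun τ => good (τ.comp (phi c n G hb.monic))) := by
  classical
  obtain ⟨σ, v, hσinj, hσK, hσj, h0, h1, h2, hgood⟩ := hpack (aeval c₁ P / aeval c₁ Q)
  obtain ⟨T, hT0, hT1, hTrel⟩ := PFa.exists_T hb c₁ hc₁ v h0 h1 h2
  set ρ : K →+* LaurentSeries ℂ :=
    (HahnSeries.C : ℂ →+* LaurentSeries ℂ).comp (iotaC.comp (algebraMap K Qb)) with hρ
  obtain ⟨ι, hιK, hιt⟩ := PF.exists_iota (c.tK n) (transcendental_tK c n) ρ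
    (HahnSeries.ofPowerSeries ℤ ℂ T)
    (fun p hp => PF.eval₂_ne_zero_of_order (iotaC.comp (algebraMap K Qb)) T _ hT1 p hp)
  set Tl : LaurentSeries ℂ := HahnSeries.ofPowerSeries ℤ ℂ T with hTl
  -- the relation `P(T) = σ(j) Q(T)`
  have hrelL : ∀ a, aeval Tl P = σ a (jF0 K G) * aeval Tl Q := by
    intro a
    rw [hσj a, hTl, ← PFa.map_aeval_int (HahnSeries.ofPowerSeries ℤ ℂ) T P, hTrel, map_mul,
      PFa.map_aeval_int]
  have hQT : aeval Tl Q ≠ 0 := by
    rw [hTl, ← PFa.map_aeval_int (HahnSeries.ofPowerSeries ℤ ℂ) T Q]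
    intro h
    have h3 : aeval T Q = 0 := HahnSeries.ofPowerSeries_injective (by rw [h, map_zero])
    have h4 := congrArg (PowerSeries.constantCoeff (R := ℂ)) h3
    rw [PFa.map_aeval_int, hT0, ← PFa.map_aeval_int iotaC, map_zero] at h4
    exact hc₁ ((map_eq_zero iotaC).1 h4)
  -- compatibility on `K(j)`
  have hcoe : ∀ p : ℤ[X], ((aeval (tE K (c.tK n)) p : EE K (c.tK n)) : Om K) = aeval (c.tK n) p :=
    fun p => PFa.map_aeval_int ((EE K (c.tK n)).val : EE K (c.tK n) →+* Om K) (tE K (c.tK n)) p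
  have hι : ∀ a (x : K⟮jF0 K G⟯),
      σ a (algebraMap K⟮jF0 K G⟯ (F0 K G) x) = ι (psi c n G hb.monic x) := by
    intro a x
    have key : (σ a).comp (algebraMap K⟮jF0 K G⟯ (F0 K G)) = ι.comp (psi c n G hb.monic) := by
      apply PF.ringHom_ext_adjoin_simple
      · intro k
        simp only [RingHom.comp_apply]
        rw [← IsScalarTower.algebraMap_apply K K⟮jF0 K G⟯ (F0 K G), psi_algebraMap, hιK, hσK]
        rfl
      · simp only [RingHom.comp_apply]
        have h1 : algebraMap K⟮jF0 K G⟯ (F0 K G)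
            (IntermediateField.AdjoinSimple.gen K (jF0 K G)) = jF0 K G := rfl
        rw [h1]
        have h2 : aeval (tE K (c.tK n)) P
            = psi c n G hb.monic (IntermediateField.AdjoinSimple.gen K (jF0 K G))
              * aeval (tE K (c.tK n)) Q := by
          apply Subtype.ext
          rw [IntermediateField.coe_mul, hcoe, hcoe, psi_gen, rel_tK]
        have h3 := congrArg ι h2
        rw [map_mul, PFa.map_aeval_int, PFa.map_aeval_int,
          show ι (tE K (c.tK n)) = Tl from hιt, hrelL a] at h3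
        exact mul_right_cancel₀ hQT h3
    exact congrArg (fun g : K⟮jF0 K G⟯ →+* LaurentSeries ℂ => g x) key
  have : CharZero K⟮jF0 K G⟯ :=
    charZero_of_injective_algebraMap (algebraMap K K⟮jF0 K G⟯).injective
  obtain ⟨τ, hτinj, hτι, hτσ⟩ := extend (phi c n G hb.monic) (psi c n G hb.monic)
    (phi_algebraMap c n G hb.monic) (hgen_FS c n G hb.monic)
    (Fintype.card_fin _) σ hσinj ι hι
  refine ⟨ι, T, ?_, hιt, hT0, hT1, τ, hτinj, hτι, ?_⟩
  · intro a
    exact hιK (a : K)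
  · intro i
    obtain ⟨a, ha⟩ := hτσ i
    have h3 : (τ i).comp (phi c n G hb.monic) = σ a := RingHom.ext ha
    rw [h3]
    exact hgood a

end

end Fermat.Agent.S48.C1
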