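import Fermat.Agent.S48.C1.H0
import Fermat.Agent.S48.C1.H1
import Fermat.Agent.S48.C1.PF
import Fermat.Agent.S48.C1.Desc
import Fermat.Agent.Crux.GT.H2
import Fermat.Agent.Crux.GT.Main
import Fermat.Agent.Crux.GM.Root

/-!
# S48 / C1 : abstract CRUX over `(K, A)`, `A` a discrete valuation ring  (generic version of `Crux/GT/Main`)
-/

set_option autoImplicit false
set_option linter.unusedVariables false
set_option linter.unusedSectionVars false

open Polynomial ModularCurve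
open scoped IntermediateField

namespace Fermat.Agent.S48.C1

noncomputable section

open Fermat.Agent.S28 (jd evAt)
open Fermat.Agent.Crux.G
open Fermat.Agent.Crux.GT
open Fermat.Agent.ES (Qb)
open Fermat.Agent.S24 (iotaC)

variable {K : Type} [Field K] [CharZero K] {A : ValuationSubring K} [IsDiscreteValuationRing A]
variable {s : ℕ} [NeZero s] {P Q : ℤ[X]}

/-- `F(w)/F` for `w ∉ F`, `w ^ d ∈ F`, `d` prime. -/
theorem kummer_degree' (t : Om K) (S : Set (Om K)) (w : Om K) (d : ℕ) (hd : d.Prime)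
    (ζ : K) (hζ : IsPrimitiveRoot ζ d)
    (W : FS K t S) (hw : w ^ d = (W : Om K)) (hwF : w ∉ FS K t S) :
    Module.finrank (FS K t S) (LS K t S w) = d ∧
    LinearIndependent (FS K t S)
      (fun j : Fin d => (⟨w, IntermediateField.mem_adjoin_simple_self _ w⟩ : LS K t S w) ^ (j : ℕ)) := by
  have hζ' : IsPrimitiveRoot (algebraMap K (Om K) ζ) d :=
    hζ.map_of_injective (algebraMap K (Om K)).injective
  have hζF : algebraMap K (Om K) ζ ∈ FS K t S := by
    have h1 : algebraMap K (Om K) ζ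
        = algebraMap (EE K t) (Om K) (algebraMap K (EE K t) ζ) := rfl
    rw [h1]
    exact (FS K t S).algebraMap_mem _
  have hnp : ∀ b : FS K t S, b ^ d ≠ W := by
    intro b hb
    have hb' : (b : Om K) ^ d = w ^ d := by
      rw [hw, ← hb]; rfl
    have hb0 : (b : Om K) ≠ 0 := by
      intro h0
      rw [h0, zero_pow hd.ne_zero] at hb'
      have : w = 0 := pow_eq_zero_iff hd.ne_zero |>.mp hb'.symm
      exact hwF (this ▸ (FS K t S).zero_mem)
    have h1 : (w / (b : Om K)) ^ d = 1 := by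
      rw [div_pow, hb', div_self]
      rw [← hb']
      exact pow_ne_zero _ hb0
    have : NeZero d := ⟨hd.ne_zero⟩
    obtain ⟨i, -, hi⟩ := hζ'.eq_pow_of_pow_eq_one h1
    have h2 : w = algebraMap K (Om K) ζ ^ i * b := by
      rw [hi, div_mul_cancel₀ _ hb0]
    exact hwF (h2 ▸ (FS K t S).mul_mem ((FS K t S).pow_mem hζF i) b.2)
  have hirr : Irreducible (X ^ d - C W : (FS K t S)[X]) := X_pow_sub_C_irreducible_of_prime hd hnp
  have hroot : aeval w (X ^ d - C W : (FS K t S)[X]) = 0 := by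
    rw [map_sub, map_pow, aeval_X, aeval_C, hw, sub_eq_zero]
    rfl
  have hmonic : (X ^ d - C W : (FS K t S)[X]).Monic := monic_X_pow_sub_C W hd.ne_zero
  have hmin : minpoly (FS K t S) w = X ^ d - C W :=
    (minpoly.eq_of_irreducible_of_monic hirr hroot hmonic).symm
  have hint : IsIntegral (FS K t S) w := ⟨_, hmonic, hroot⟩
  have hdeg : (minpoly (FS K t S) w).natDegree = d := by
    rw [hmin, natDegree_X_pow_sub_C]
  refine ⟨?_, ?_⟩
  · rw [IntermediateField.adjoin.finrank hint, hdeg]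
  · have hgen : minpoly (FS K t S)
        (⟨w, IntermediateField.mem_adjoin_simple_self _ w⟩ : LS K t S w)
        = minpoly (FS K t S) w := IntermediateField.minpoly_gen (FS K t S) w
    have hli := linearIndependent_pow (K := FS K t S)
      (⟨w, IntermediateField.mem_adjoin_simple_self _ w⟩ : LS K t S w)
    rw [hgen] at hli
    have := hli.comp (Fin.cast hdeg.symm) (Fin.cast_injective _)
    exact this

theorem finiteDimensional_LS (t : Om K) (S : Set (Om K)) (w : Om K)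
    [FiniteDimensional (EE K t) (FS K t S)] {d : ℕ} (hd : 0 < d)
    (h : Module.finrank (FS K t S) (LS K t S w) = d) :
    FiniteDimensional (EE K t) (LS K t S w) := by
  have : FiniteDimensional (FS K t S) (LS K t S w) :=
    FiniteDimensional.of_finrank_pos (by rw [h]; exact hd)
  exact FiniteDimensional.trans (EE K t) (FS K t S) (LS K t S w)

/-- The Gauss valuation ring of `K((x))`, seen from `F`. -/
theorem exists_gauss_FS (c : Coord A s P Q) (n : ℕ) [NeZero n] (S : Set (Om K))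
    {π : A} (hπ : Irreducible π) {k : Type} [Field k] (r : A →+* k) (hr : Function.Surjective r) :
    ∃ B : ValuationSubring (Om K),
      (∀ f : LaurentSeries A, coeffMap A.subtype f ∈ B) ∧
      (∀ f : LaurentSeries A, coeffMap A.subtype f ∈ B.nonunits ↔ coeffMap r f = 0) ∧
      (∀ p : A[X], (algebraMap (FS K (c.tK n) S) (Om K))
        (algebraMap (EE K (c.tK n)) (FS K (c.tK n) S) (aeval (tE K (c.tK n)) p)) ∈ B) ∧
      (∀ p : A[X], (algebraMap (FS K (c.tK n) S) (Om K))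
        (algebraMap (EE K (c.tK n)) (FS K (c.tK n) S) (aeval (tE K (c.tK n)) p)) ∈ B.nonunits
          ↔ C π ∣ p) := by
  obtain ⟨B, hB, hB'⟩ := exists_gaussB (coeffMap A.subtype) (coeffMap r) (coeffMap_surjective r hr)
    (fun f hf => by
      have : f = 0 := by
        apply Fermat.Agent.S28.Build.coeffMap_injective A.subtype Subtype.val_injective
        rw [hf, map_zero]
      rw [this, map_zero])
  have key : ∀ p : A[X], (algebraMap (FS K (c.tK n) S) (Om K))
        (algebraMap (EE K (c.tK n)) (FS K (c.tK n) S) (aeval (tE K (c.tK n)) p))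
      = coeffMap A.subtype (evAt (c.tA n) p) := fun p => coe_aeval_tE c n p
  refine ⟨B, hB, hB', fun p => ?_, fun p => ?_⟩
  · rw [key]; exact hB _
  · rw [key, hB', red_evAt_tA c n hπ r hr]

theorem coreK_aux [Algebra K Qb] (hb : IsBase s P Q) (n ℓ : ℕ) [NeZero n] (hℓ : ℓ.Prime)
    (hsℓ : ¬ ℓ ∣ s)
    (k : Type) [Field k] (r : A →+* k) (hr : Function.Surjective r) (hrℓ : r (ℓ : A) = 0)
    (d : ℕ) (hd : d.Prime) (hdℓ : d ≠ ℓ) (ζ : K) (hζ : IsPrimitiveRoot ζ d)
    (B0 Binf : Finset A)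
    (hB0 : ∀ β ∈ B0, ∀ β' ∈ B0, r β = r β' → β = β')
    (hBinf : ∀ β ∈ Binf, ∀ β' ∈ Binf, r β = r β' → β = β')
    (hQ0 : ∀ x : Qb, aeval x Q = 0 → ∃ β ∈ B0, algebraMap K Qb β = x)
    (hQinf : (0 : A) ∈ Binf ∧ ∀ x : Qb, aeval x Q = 0 → x ≠ 0 → ∃ β ∈ Binf, algebraMap K Qb β = x⁻¹)
    (G : Set (LaurentSeries K)) (hG : G.Finite)
    (hcusp : ∀ g ∈ G, HasCuspPoly r n (qExpand K n g))
    (y₁ y₂ : LaurentSeries A)
    (h₁ : coeffMap A.subtype y₁ ∈ F0 K G) (h₂ : coeffMap A.subtype y₂ ∈ F0 K G)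
    (hred : coeffMap r y₁ = coeffMap r y₂) (hne : coeffMap r y₂ ≠ 0)
    (hlc : ∃ a : K, a ^ d = (coeffMap A.subtype y₁ / coeffMap A.subtype y₂).leadingCoeff)
    (hord : (d : ℤ) ∣ (coeffMap A.subtype y₁ / coeffMap A.subtype y₂).order)
    (hpack : HasPacks (F0 K G) (jF0 K G)
      (fun σ => (d : ℤ) ∣ (σ ⟨coeffMap A.subtype y₁ / coeffMap A.subtype y₂, div_mem h₁ h₂⟩).order)) :
    ∃ u ∈ F0 K G, u ^ d = coeffMap A.subtype y₁ / coeffMap A.subtype y₂ := by
  obtain ⟨π, hπ⟩ := IsDiscreteValuationRing.exists_irreducible A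
  have hsA : IsUnit (s : A) := isUnit_natCast r hℓ hrℓ s hsℓ
  have hdA : IsUnit (d : A) := isUnit_natCast r hℓ hrℓ d
    (fun h => hdℓ ((Nat.prime_dvd_prime_iff_eq hℓ hd).mp h).symm)
  obtain ⟨Z, hZ, hrel⟩ := hb.formal A hsA
  let c : Coord A s P Q := ⟨Z, hZ, hrel⟩
  set W : LaurentSeries K := coeffMap A.subtype y₁ / coeffMap A.subtype y₂ with hWdef
  have hWmem : W ∈ F0 K G := div_mem h₁ h₂
  have hy₂ : coeffMap A.subtype y₂ ≠ 0 := by
    intro h
    apply hne
    have : y₂ = 0 := by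
      apply Fermat.Agent.S28.Build.coeffMap_injective A.subtype Subtype.val_injective
      rw [h, map_zero]
    rw [this, map_zero]
  have hy₁ : coeffMap A.subtype y₁ ≠ 0 := by
    intro h
    apply hne
    have : y₁ = 0 := by
      apply Fermat.Agent.S28.Build.coeffMap_injective A.subtype Subtype.val_injective
      rw [h, map_zero]
    rw [← hred, this, map_zero]
  have hW0 : W ≠ 0 := div_ne_zero hy₁ hy₂
  -- the tower
  set S : Set (Om K) := qExpand K (n * s) '' G with hSdef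
  have hSfin : S.Finite := hG.image _
  have hcS : ∀ y ∈ S, HasCuspPoly r (n * s) y := by
    rintro _ ⟨g, hg, rfl⟩
    exact (hcusp g hg).expand s
  have hx := transcendental_tE c n
  have hgen := hgen_tE (A := A) (c.tK n)
  have := finiteDimensional_FS c n hb.monic r S hSfin hcS
  have := finiteDimensional_F0 G hG r n hcusp
  have hdvd : ∀ a b : A, π ∣ a - b → r a = r b := by
    intro a b h
    have := (map_eq_zero_iff_dvd hπ r hr (a - b)).mpr h
    rwa [map_sub, sub_eq_zero] at this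
  have hB0' : ∀ β ∈ B0, ∀ β' ∈ B0, π ∣ β - β' → β = β' :=
    fun β h β' h' hd => hB0 β h β' h' (hdvd _ _ hd)
  have hBinf' : ∀ β ∈ Binf, ∀ β' ∈ Binf, π ∣ β - β' → β = β' :=
    fun β h β' h' hd => hBinf β h β' h' (hdvd _ _ hd)
  -- (H1), (H2), (H0) for `F`
  have H1 := tracePerfectx_FS hb c n hπ r hr S hSfin hcS
  let WF : FS K (c.tK n) S := ⟨qExpand K (n * s) W, qExpand_mem_FS c n hb.monic G hWmem⟩
  have hPF : ∀ (c₁ : Qb) (hc₁ : aeval c₁ Q ≠ 0),
      PointFam (FS K (c.tK n) S) (rhoA A) (tE K (c.tK n)) (iotaC c₁)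
        (fun τ => (d : ℤ) ∣ (τ WF).order) :=
    fun c₁ hc₁ => pointFam_FS hb c n G c₁ hc₁ _ hpack
  obtain ⟨H2F, H2F'⟩ := unramx_both (Q := Q) hx (L := FS K (c.tK n) S) hπ B0 Binf hQ0 hQinf
    (fun c₁ hc₁ => (hPF c₁ hc₁).mono (fun _ _ => trivial))
  have hconn := theoremG π hπ (tE K (c.tK n)) hx hgen (H0_FS (A := A) (c.tK n) S) H1
    B0 Binf hB0' hBinf' H2F H2F'
  -- the Gauss valuation
  obtain ⟨B, hBmem, hBnon, hBE, hBE'⟩ := exists_gauss_FS c n S hπ r hr
  obtain ⟨hWB, hWB', hWB1⟩ := gauss_W B r hBmem hBnon (n * s) y₁ y₂ hred hne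
  have hWF0 : WF ≠ 0 := by
    intro h
    have h' : qExpand K (n * s) W = 0 := congrArg Subtype.val h
    exact hW0 (qExpand_injective (n * s) (by rw [h', map_zero]))
  have hOW : IsOLx π (tE K (c.tK n)) WF :=
    isOLx_of_mem hπ hx hgen H1 hconn B (algebraMap _ (Om K)) hBE hBE' hWB
  have hOW' : IsOLx π (tE K (c.tK n)) WF⁻¹ :=
    isOLx_of_mem hπ hx hgen H1 hconn B (algebraMap _ (Om K)) hBE hBE' (by rw [map_inv₀]; exact hWB')
  have hOW1 : IsPiOLx π (tE K (c.tK n)) (WF - 1) :=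
    isPiOLx_of_mem_nonunits hπ hx hgen H1 hconn B (algebraMap _ (Om K)) hBE hBE'
      (by rw [map_sub, map_one]; exact hWB1)
  -- the root
  obtain ⟨w₁, hw₁⟩ := Fermat.Agent.Crux.GM.exists_pow_eq_laurent d hd.pos W hW0 hord hlc
  have hζ' : IsPrimitiveRoot (algebraMap K (Om K) ζ) d := hζ.map_of_injective (algebraMap K (Om K)).injective
  obtain ⟨i, hi⟩ := exists_pow_mul_sub_one_mem B d hd.pos _ hζ' (qExpand K (n * s) w₁)
    (by rw [← map_pow, hw₁]; exact hWB1)
  set w₀ : LaurentSeries K := algebraMap K (Om K) ζ ^ i * w₁ with hw₀def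
  have hw₀ : w₀ ^ d = W := by
    rw [hw₀def, mul_pow, hw₁, ← pow_mul, mul_comm i d, pow_mul, hζ'.pow_eq_one, one_pow, one_mul]
  have hVw₀ : qExpand K (n * s) w₀ = algebraMap K (Om K) ζ ^ i * qExpand K (n * s) w₁ := by
    rw [hw₀def, map_mul, map_pow, MainAux.qExpand_algebraMap]
  refine ⟨w₀, ?_, hw₀⟩
  by_cases hwF : qExpand K (n * s) w₀ ∈ FS K (c.tK n) S
  · -- descent
    refine descent hb c n hπ r hr hsA d hd hdA ζ hζ G w₀ (by rw [hw₀]; exact hWmem) hwF ?_
    refine isPiOLx_of_mem_nonunits hπ hx hgen H1 hconn B (algebraMap _ (Om K)) hBE hBE' ?_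
    rw [map_sub, map_one]
    show qExpand K (n * s) w₀ - 1 ∈ B.nonunits
    rw [hVw₀]
    exact hi
  · -- Kummer extension: contradiction with `GK`
    exfalso
    have hwW : (qExpand K (n * s) w₀) ^ d = (WF : Om K) := by
      rw [← map_pow, hw₀]
    obtain ⟨hdeg, hli⟩ := kummer_degree' (c.tK n) S (qExpand K (n * s) w₀) d hd ζ hζ WF hwW hwF
    have := finiteDimensional_LS (c.tK n) S (qExpand K (n * s) w₀) hd.pos hdeg
    have hwL : (⟨qExpand K (n * s) w₀, IntermediateField.mem_adjoin_simple_self _ _⟩ :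
        LS K (c.tK n) S (qExpand K (n * s) w₀)) ^ d = algebraMap _ _ WF := by
      apply Subtype.ext
      exact hwW
    obtain ⟨H2L, H2L'⟩ := unramx_both (Q := Q) hx
      (L := LS K (c.tK n) S (qExpand K (n * s) w₀)) hπ B0 Binf hQ0 hQinf
      (fun c₁ hc₁ => (hPF c₁ hc₁).kummer d hd.pos _ WF hWF0 hwL hdeg hli)
    have hdπ : ¬ π ∣ (d : A) := fun h => hπ.not_isUnit (isUnit_of_dvd_unit h hdA)
    exact GK π hπ (tE K (c.tK n)) hx hgen H1 d hd.two_le hdπ WF hOW hOW' hOW1 _ hwL hdeg hli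
      (H0_LS (A := A) (c.tK n) S _) B0 Binf hB0' hBinf' H2L H2L'

/-- **Abstract CRUX over `(K, A)`**, `A` a discrete valuation ring of residue characteristic `ℓ`. -/
theorem coreK (n ℓ : ℕ) [NeZero n] (hℓ : ℓ.Prime)
    (K : Type) [Field K] [Algebra K Qb] (A : ValuationSubring K) [IsDiscreteValuationRing A]
    (k : Type) [Field k] (r : A →+* k) (hr : Function.Surjective r) (hrℓ : r (ℓ : A) = 0)
    (d : ℕ) (hd : d.Prime) (hdℓ : d ≠ ℓ)
    (hzd : ∃ z : K, IsPrimitiveRoot z d) (hz3 : ∃ z : K, IsPrimitiveRoot z 3)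
    (G : Set (LaurentSeries K)) (hG : G.Finite)
    (hcusp : ∀ g ∈ G, HasCuspPoly r n (qExpand K n g))
    (y₁ y₂ : LaurentSeries A)
    (h₁ : coeffMap A.subtype y₁ ∈ F0 K G) (h₂ : coeffMap A.subtype y₂ ∈ F0 K G)
    (hred : coeffMap r y₁ = coeffMap r y₂) (hne : coeffMap r y₂ ≠ 0)
    (hlc : ∃ a : K, a ^ d = (coeffMap A.subtype y₁ / coeffMap A.subtype y₂).leadingCoeff)
    (hord : (d : ℤ) ∣ (coeffMap A.subtype y₁ / coeffMap A.subtype y₂).order)
    (hpack : HasPacks (F0 K G) (jF0 K G)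
      (fun σ => (d : ℤ) ∣ (σ ⟨coeffMap A.subtype y₁ / coeffMap A.subtype y₂, div_mem h₁ h₂⟩).order)) :
    ∃ u ∈ F0 K G, u ^ d = coeffMap A.subtype y₁ / coeffMap A.subtype y₂ := by
  have : CharZero K :=
    ((algebraMap K Qb).charZero_iff (algebraMap K Qb).injective).mpr inferInstance
  obtain ⟨ζ, hζ⟩ := hzd
  obtain ⟨ω, hω⟩ := hz3
  by_cases h2 : ℓ = 2
  · subst h2
    obtain ⟨B0, Binf, hB0, hBinf, hQ0, hQinf⟩ := branch_hes (A := A) r (by exact_mod_cast hrℓ) ω hω
    exact coreK_aux isBase_hes n 2 hℓ (by norm_num) k r hr hrℓ d hd hdℓ ζ hζ B0 Binf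
      hB0 hBinf hQ0 hQinf G hG hcusp y₁ y₂ h₁ h₂ hred hne hlc hord hpack
  · obtain ⟨B0, Binf, hB0, hBinf, hQ0, hQinf⟩ := branch_lam (A := A) r
    have h2' : ¬ ℓ ∣ 2 := fun h => h2 ((Nat.prime_dvd_prime_iff_eq hℓ Nat.prime_two).mp h)
    exact coreK_aux isBase_lam n ℓ hℓ h2' k r hr hrℓ d hd hdℓ ζ hζ B0 Binf
      hB0 hBinf hQ0 hQinf G hG hcusp y₁ y₂ h₁ h₂ hred hne hlc hord hpack

end

end Fermat.Agent.S48.C1
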