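import Fermat.Agent.S48.C1.Basic

/-!
# S48 / C1 : the maps `φ = V_e : F₀ → F`, `ψ = V_e : K(j) → E`  (generic version of `Crux/GT/PF/Maps`)

`t = c.tK n`, `e = n * s`, `E = EE K t = K⟮t⟯`, `F = FS K t (V_e '' G)`, `F₀ = F0 K G = K(j, G)`.
* `qExpand_mem_EE` : `K⟮jF0⟯ ≤ (EE K t).comap ((qExpandAlgHomC K e).comp F₀.val)` by `IntermediateField.adjoin_simple_le_iff`:
  `qExpand K e (jqModC K) = jd K e` (`S28.jd_eq`) `∈ EE K t` (`GT.jd_mem_EE c n hQ`).
* `phi_algebraMap`, `psi_algebraMap`, `psi_gen` : `Subtype.ext`/`rfl` (constants: `(qExpandAlgHomC K e).commutes`).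
* `hgen_FS` : let `T` be a subfield of `F` containing `E` and `φ(F₀)`; apply `H1.FS_subfield_eq_top`-style argument: the generators
  `V_e g = φ ⟨g, _⟩`.
* `transcendental_tK` : from `GT.transcendental_tE c n : Transcendental A (tE K (c.tK n))` (clear denominators: `K = Frac A`), or
  `GM.eq_C_of_isAlgebraic` (`Crux/GM/AlgClosed.lean`): an algebraic element of `K((x))` is a constant, but `t` is not
  (`GT.coeff_evAt_tOf` / order `-n`).
* `finiteDimensional_F0` : every `g ∈ G` is integral over `K(j)`: `V_e (Φ(j, g)) = Φ(V_e j, V_e g) = 0` and `V_e` is injective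
  (`qExpand_injective`); `F₀ = K(j)(G)`, `G` finite.
-/

set_option autoImplicit false

open Polynomial ModularCurve
open scoped IntermediateField

namespace Fermat.Agent.S48.C1

noncomputable section

open Fermat.Agent.S28 (jd)
open Fermat.Agent.Crux.GT

section Inst

variable (K : Type) [Field K] (G : Set (LaurentSeries K))

/-! shortcut instances (instance search through `LaurentSeries K` is slow). -/
instance (priority := high) instFieldF0 : Field (F0 K G) := inferInstance
instance (priority := high) instAlgKF0 : Algebra K (F0 K G) := inferInstance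
instance (priority := high) instFieldKj : Field K⟮jF0 K G⟯ := inferInstance
instance (priority := high) instAlgKj : Algebra K K⟮jF0 K G⟯ := (K⟮jF0 K G⟯).algebra'
instance (priority := high) instAlgKjF0 : Algebra K⟮jF0 K G⟯ (F0 K G) := inferInstance
instance (priority := high) instTowerKjF0 : IsScalarTower K K⟮jF0 K G⟯ (F0 K G) := inferInstance

end Inst

variable {K : Type} [Field K] {A : ValuationSubring K}
variable {s : ℕ} [NeZero s] {P Q : ℤ[X]} (c : Coord A s P Q) (n : ℕ) [NeZero n]
variable (G : Set (LaurentSeries K))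

/-- `φ = V_e : F₀ → F`. -/
def phi (hQ : Q.Monic) : F0 K G →+* FS K (c.tK n) (qExpand K (n * s) '' G) :=
  ((qExpand K (n * s)).comp ((F0 K G).val : _ →+* LaurentSeries K)).codRestrict
      (FS K (c.tK n) (qExpand K (n * s) '' G)) (fun f => qExpand_mem_FS c n hQ G f.2)

theorem phi_coe (hQ : Q.Monic) (f : F0 K G) :
    ((phi c n G hQ f : FS K (c.tK n) (qExpand K (n * s) '' G)) : Om K)
      = qExpand K (n * s) (f : LaurentSeries K) := rfl

theorem qExpand_mem_EE (hQ : Q.Monic) (x : K⟮jF0 K G⟯) :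
    qExpand K (n * s) (((x : F0 K G)) : LaurentSeries K) ∈ EE K (c.tK n) := by
  have : NeZero (n * s) := ⟨mul_ne_zero (NeZero.ne n) (NeZero.ne s)⟩
  have hle : K⟮jF0 K G⟯ ≤ (EE K (c.tK n)).comap
      ((qExpandAlgHomC K (n * s)).comp (F0 K G).val) := by
    rw [IntermediateField.adjoin_simple_le_iff]
    change qExpand K (n * s) (jqModC K) ∈ EE K (c.tK n)
    have h := jd_mem_EE c n hQ
    rw [Fermat.Agent.S28.jd_eq] at h
    exact h
  exact hle x.2

/-- `ψ = V_e : K(j) → E`. -/
def psi (hQ : Q.Monic) : K⟮jF0 K G⟯ →+* EE K (c.tK n) :=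
  (((qExpand K (n * s)).comp ((F0 K G).val : _ →+* LaurentSeries K)).comp
      ((K⟮jF0 K G⟯).val : _ →+* F0 K G)).codRestrict
      (EE K (c.tK n)) (fun x => qExpand_mem_EE c n G hQ x)

theorem phi_algebraMap (hQ : Q.Monic) (x : K⟮jF0 K G⟯) :
    phi c n G hQ (algebraMap K⟮jF0 K G⟯ (F0 K G) x)
      = algebraMap (EE K (c.tK n)) (FS K (c.tK n) (qExpand K (n * s) '' G)) (psi c n G hQ x) := by
  apply Subtype.ext
  rfl

theorem psi_algebraMap (hQ : Q.Monic) (a : K) :
    psi c n G hQ (algebraMap K K⟮jF0 K G⟯ a) = algebraMap K (EE K (c.tK n)) a := by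
  have : NeZero (n * s) := ⟨mul_ne_zero (NeZero.ne n) (NeZero.ne s)⟩
  apply Subtype.ext
  exact (qExpandAlgHomC K (n * s)).commutes a

theorem psi_gen (hQ : Q.Monic) :
    ((psi c n G hQ (IntermediateField.AdjoinSimple.gen K (jF0 K G)) : EE K (c.tK n)) : Om K)
      = jd K (n * s) := by
  have : NeZero (n * s) := ⟨mul_ne_zero (NeZero.ne n) (NeZero.ne s)⟩
  rw [Fermat.Agent.S28.jd_eq]
  rfl

theorem hgen_FS (hQ : Q.Monic) (T : Subfield (FS K (c.tK n) (qExpand K (n * s) '' G)))
    (h1 : ∀ y, algebraMap (EE K (c.tK n)) (FS K (c.tK n) (qExpand K (n * s) '' G)) y ∈ T)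
    (h2 : ∀ f, phi c n G hQ f ∈ T) : T = ⊤ := by
  let T' : IntermediateField (EE K (c.tK n)) (Om K) :=
    (T.map ((FS K (c.tK n) (qExpand K (n * s) '' G)).val :
      FS K (c.tK n) (qExpand K (n * s) '' G) →+* Om K)).toIntermediateField
      (fun x => ⟨algebraMap (EE K (c.tK n)) (FS K (c.tK n) (qExpand K (n * s) '' G)) x, h1 x, rfl⟩)
  have hle : FS K (c.tK n) (qExpand K (n * s) '' G) ≤ T' := by
    rw [IntermediateField.adjoin_le_iff]
    rintro _ ⟨g, hg, rfl⟩
    exact ⟨phi c n G hQ ⟨g, IntermediateField.subset_adjoin _ _ (Set.mem_insert_of_mem _ hg)⟩,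
      h2 _, rfl⟩
  rw [eq_top_iff]
  intro y _
  obtain ⟨y', hy', hyy⟩ := hle y.2
  have : y' = y := Subtype.ext hyy
  rw [← this]
  exact hy'

theorem transcendental_tK : Transcendental K (c.tK n) := by
  have hZ : IsUnit (PowerSeries.constantCoeff (c.Z.map A.subtype)) := by
    have : PowerSeries.constantCoeff (c.Z.map A.subtype)
        = A.subtype (PowerSeries.constantCoeff c.Z) := by
      rw [← PowerSeries.coeff_zero_eq_constantCoeff_apply, PowerSeries.coeff_map,
        PowerSeries.coeff_zero_eq_constantCoeff_apply]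
    rw [this]
    exact c.hZ.map A.subtype
  have ht : c.tK n = qExpand K n (tOf (c.Z.map A.subtype)) := by
    rw [Coord.tK, Coord.tA, Fermat.Agent.S28.Build.coeffMap_V, coeffMap_tOf]
  rw [transcendental_iff]
  intro p hp
  rw [← Fermat.Agent.S28.evAt_eq_aeval, ht] at hp
  exact (map_eq_zero_iff _ (evAt_tOf_injective _ hZ n)).1 hp

omit [NeZero s] in
/-- an element of `F₀` whose `V_e` has a cusp polynomial is integral over `K(j)`. -/
theorem isIntegral_of_cusp {k : Type} [Field k] (r : A →+* k) (e : ℕ) [NeZero e] (x : F0 K G)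
    (hc : HasCuspPoly r e (qExpand K e (x : LaurentSeries K))) : IsIntegral K⟮jF0 K G⟯ x := by
  obtain ⟨Φ, Y, hΦ, hroot, hY⟩ := hc.exists_root
  let θ : A[X] →+* K⟮jF0 K G⟯ :=
    eval₂RingHom ((algebraMap K K⟮jF0 K G⟯).comp A.subtype)
      (IntermediateField.AdjoinSimple.gen K (jF0 K G))
  have hcomp : (coeffMap A.subtype).comp (Fermat.Agent.S28.evAt (qExpand A e (jqModC A)))
      = (qExpand K e).comp (((F0 K G).val : F0 K G →+* LaurentSeries K).comp
          ((algebraMap K⟮jF0 K G⟯ (F0 K G)).comp θ)) := by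
    refine Polynomial.ringHom_ext (fun a => ?_) ?_
    · simp only [RingHom.comp_apply, Fermat.Agent.S28.Build.evAt_C, θ, coe_eval₂RingHom, eval₂_C]
      have h1 : coeffMap A.subtype (HahnSeries.C a) = algebraMap K (LaurentSeries K) (a : K) := by
        rw [algebraMap_laurentSeries_eq_single]
        exact coeffMap_single _ _ _
      rw [h1]
      exact ((qExpandAlgHomC K e).commutes (a : K)).symm
    · simp only [RingHom.comp_apply, Fermat.Agent.S28.Build.evAt_X, θ, coe_eval₂RingHom, eval₂_X]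
      rw [coeffMap_qExpand', coeffMap_jqModC]
      rfl
  have h0 := congrArg (coeffMap A.subtype) hroot
  rw [map_zero, hom_eval₂, hcomp, hY, ← hom_eval₂] at h0
  have h1 := (map_eq_zero_iff _ (qExpand_injective e)).1 h0
  have h2 : eval₂ ((algebraMap K⟮jF0 K G⟯ (F0 K G)).comp θ) x Φ = 0 := by
    apply Subtype.ext
    have := hom_eval₂ Φ ((algebraMap K⟮jF0 K G⟯ (F0 K G)).comp θ)
      ((F0 K G).val : F0 K G →+* LaurentSeries K) x
    exact this.trans h1
  exact ⟨Φ.map θ, hΦ.map θ, by rw [eval₂_map]; exact h2⟩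

theorem finiteDimensional_F0 (hG : G.Finite) {k : Type} [Field k] (r : A →+* k) (e : ℕ) [NeZero e]
    (hc : ∀ g ∈ G, HasCuspPoly r e (qExpand K e g)) :
    FiniteDimensional K⟮jF0 K G⟯ (F0 K G) := by
  classical
  set G' : Set (F0 K G) := {x | (x : LaurentSeries K) ∈ G} with hG'
  have hfin : G'.Finite := by
    refine Set.Finite.of_finite_image (f := fun x : F0 K G => (x : LaurentSeries K)) (hG.subset ?_)
      (fun x _ y _ h => Subtype.ext h)
    rintro _ ⟨x, hx, rfl⟩
    exact hx
  have hint : ∀ x ∈ G', IsIntegral K⟮jF0 K G⟯ x := fun x hx => isIntegral_of_cusp G r e x (hc _ hx)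
  have htop : IntermediateField.adjoin K⟮jF0 K G⟯ G' = ⊤ := by
    rw [eq_top_iff]
    intro y _
    set T := IntermediateField.adjoin K⟮jF0 K G⟯ G' with hT
    have hle : F0 K G ≤ (T.restrictScalars K).map (F0 K G).val := by
      rw [IntermediateField.adjoin_le_iff]
      rintro z (rfl | hz)
      · refine ⟨jF0 K G, ?_, rfl⟩
        exact T.algebraMap_mem (IntermediateField.AdjoinSimple.gen K (jF0 K G))
      · refine ⟨⟨z, IntermediateField.subset_adjoin _ _ (Set.mem_insert_of_mem _ hz)⟩, ?_, rfl⟩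
        exact IntermediateField.subset_adjoin K⟮jF0 K G⟯ G' hz
    obtain ⟨y', hy', hyy⟩ := hle y.2
    have : y' = y := Subtype.ext hyy
    rw [← this]
    exact hy'
  have : Finite G' := hfin.to_subtype
  have hfd : FiniteDimensional K⟮jF0 K G⟯ (IntermediateField.adjoin K⟮jF0 K G⟯ G') :=
    IntermediateField.finiteDimensional_adjoin hint
  rw [htop] at hfd
  exact (IntermediateField.topEquiv (F := K⟮jF0 K G⟯) (E := F0 K G)).toLinearEquiv.finiteDimensional

end

end Fermat.Agent.S48.C1
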